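/-
JT3 (helper7): node [KD], the Laurent-series half of the Kummer descent (both covers).

`τ = fs_twist ξ : q ↦ ξ q` (S28/Formal/Subst) for a root of unity `ξ` with `ξ ^ n = 1`:
* `kd_twist_qExpand` : `τ` fixes `qExpand L n x` (series in `q^n`);
* `kd_twistEquiv`, `kd_twistOver` : `τ` as a ring automorphism of `L((q))`, and as an algebra
  automorphism over any intermediate field which it fixes pointwise;
* `kd_const_of_isAlgebraic` : `L` is algebraically closed in `L((q))` (any field `L`);
* `kd_const_of_pow_eq_one` : roots of unity of `L((q))` are constants;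
* `kd_twist_fix` : `g ^ p = qExpand L n f`, `p ∣ ord_q f`  ⟹  `τ g = g`.
Prefix `kd_`.
-/
import Mathlib
import Fermat.Agent.S28.Formal.Subst
import Fermat.Prelude.Def_ModularCurve_X0ModL
import Fermat.Agent.JT3.Algebra.LaurentSep

set_option autoImplicit false
set_option linter.unusedSectionVars false

noncomputable section

namespace Fermat.Agent.JT3

open ModularCurve HahnSeries Fermat.Agent.S28

variable {L : Type*} [Field L]

/-- `q ↦ ξ q` fixes the series in `q ^ n` when `ξ ^ n = 1`. -/
theorem kd_twist_qExpand {n : ℕ} [NeZero n] {ξ : Lˣ} (hξ : ξ ^ n = 1) (x : LaurentSeries L) :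
    fs_twist ξ (qExpand L n x) = qExpand L n x := by
  rw [← fs_qExpand_twist, hξ, fs_twist_one]

/-- the twist as a ring automorphism -/
def kd_twistEquiv (ξ : Lˣ) : LaurentSeries L ≃+* LaurentSeries L :=
  RingEquiv.ofRingHom (fs_twist ξ) (fs_twist ξ⁻¹)
    (RingHom.ext fun f => fs_twist_twist_inv ξ f) (RingHom.ext fun f => fs_twist_inv_twist ξ f)

@[simp] theorem kd_twistEquiv_apply (ξ : Lˣ) (f : LaurentSeries L) :
    kd_twistEquiv ξ f = fs_twist ξ f := rfl

/-- the twist as an algebra automorphism over an intermediate field fixed pointwise -/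
def kd_twistOver (ξ : Lˣ) (F2 : IntermediateField L (LaurentSeries L))
    (hfix : ∀ x ∈ F2, fs_twist ξ x = x) : LaurentSeries L ≃ₐ[F2] LaurentSeries L :=
  AlgEquiv.ofRingEquiv (f := kd_twistEquiv ξ) (fun x => hfix x x.2)

@[simp] theorem kd_twistOver_apply (ξ : Lˣ) (F2 : IntermediateField L (LaurentSeries L))
    (hfix : ∀ x ∈ F2, fs_twist ξ x = x) (f : LaurentSeries L) :
    kd_twistOver ξ F2 hfix f = fs_twist ξ f := rfl

/-- a nonzero Laurent series which is algebraic over the coefficient field has order `0` -/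
theorem kd_order_eq_zero_of_isAlgebraic {z : LaurentSeries L} (hz : IsAlgebraic L z)
    (hz0 : z ≠ 0) : z.order = 0 := by
  by_contra hord
  obtain ⟨P, hP0, hP⟩ := hz
  rw [Polynomial.aeval_def, Polynomial.eval₂_eq_sum, Polynomial.sum_def] at hP
  refine lsp_sum_ne_zero P.support
    (fun i => algebraMap L (LaurentSeries L) (P.coeff i) * z ^ i) ?_ ?_ hP
  · intro i hi i' hi' _ _ hii'
    have hci : algebraMap L (LaurentSeries L) (P.coeff i) ≠ 0 :=
      (map_ne_zero_iff _ (algebraMap L (LaurentSeries L)).injective).2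
        (Polynomial.mem_support_iff.1 hi)
    have hci' : algebraMap L (LaurentSeries L) (P.coeff i') ≠ 0 :=
      (map_ne_zero_iff _ (algebraMap L (LaurentSeries L)).injective).2
        (Polynomial.mem_support_iff.1 hi')
    have hord0 : ∀ c : L, c ≠ 0 → (algebraMap L (LaurentSeries L) c).order = 0 := by
      intro c hc
      rw [algebraMap_laurentSeries_eq_single]
      exact HahnSeries.order_single hc
    rw [HahnSeries.order_mul hci (pow_ne_zero _ hz0), HahnSeries.order_mul hci'
      (pow_ne_zero _ hz0), HahnSeries.order_pow, HahnSeries.order_pow,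
      hord0 _ (Polynomial.mem_support_iff.1 hi), hord0 _ (Polynomial.mem_support_iff.1 hi'),
      zero_add, zero_add, nsmul_eq_mul, nsmul_eq_mul] at hii'
    exact_mod_cast mul_right_cancel₀ hord hii'
  · obtain ⟨i, hi⟩ := Polynomial.nonempty_support_iff.2 hP0
    refine ⟨i, hi, mul_ne_zero ?_ (pow_ne_zero _ hz0)⟩
    exact (map_ne_zero_iff _ (algebraMap L (LaurentSeries L)).injective).2
      (Polynomial.mem_support_iff.1 hi)

/-- **`L` is algebraically closed in `L((q))`** (any field `L`) -/
theorem kd_const_of_isAlgebraic {z : LaurentSeries L} (hz : IsAlgebraic L z) :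
    ∃ c : L, z = HahnSeries.C c := by
  refine ⟨z.coeff 0, ?_⟩
  by_contra hne
  have hw0 : z - HahnSeries.C (z.coeff 0) ≠ 0 := sub_ne_zero.2 hne
  have hwalg : IsAlgebraic L (z - HahnSeries.C (z.coeff 0)) := by
    refine hz.sub ?_
    rw [HahnSeries.C_apply, ← algebraMap_laurentSeries_eq_single]
    exact isAlgebraic_algebraMap _
  have hord := kd_order_eq_zero_of_isAlgebraic hwalg hw0
  have hc : (z - HahnSeries.C (z.coeff 0)).coeff 0 = 0 := by
    rw [HahnSeries.coeff_sub, HahnSeries.C_apply, HahnSeries.coeff_single_same, sub_self]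
  have := HahnSeries.coeff_order_eq_zero.1 (by rw [hord]; exact hc)
  exact hw0 this

/-- roots of unity of `L((q))` are constants -/
theorem kd_const_of_pow_eq_one {p : ℕ} (hp : p ≠ 0) {z : LaurentSeries L}
    (hz : z ^ p = 1) : ∃ c : L, z = HahnSeries.C c := by
  have hint : IsIntegral L z := by
    refine ⟨Polynomial.X ^ p - 1, Polynomial.monic_X_pow_sub_C (1 : L) hp, ?_⟩
    simp [hz]
  exact kd_const_of_isAlgebraic hint.isAlgebraic

/-- the scalar by which the twist acts on an eigenvector is `ξ ^ ord` -/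
theorem kd_twist_scalar_eq {ξ : Lˣ} {g : LaurentSeries L} (hg : g ≠ 0) {c : L}
    (h : fs_twist ξ g = HahnSeries.C c * g) : c = ((ξ ^ g.order : Lˣ) : L) := by
  have h1 := congrArg (fun y : LaurentSeries L => y.coeff g.order) h
  simp only [fs_twist_coeff, HahnSeries.C_mul_eq_smul, HahnSeries.coeff_smul, smul_eq_mul] at h1
  have h2 : g.coeff g.order ≠ 0 := fun h0 => hg (HahnSeries.coeff_order_eq_zero.mp h0)
  exact (mul_right_cancel₀ h2 h1).symm

/-- **the twist fixes `p`-th roots of series in `q^n` of order divisible by `p`** -/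
theorem kd_twist_fix {n : ℕ} [NeZero n] {ξ : Lˣ} (hξ : ξ ^ n = 1) {p : ℕ}
    (hp : p ≠ 0) {g f : LaurentSeries L} (hgp : g ^ p = qExpand L n f)
    (hord : (p : ℤ) ∣ f.order) : fs_twist ξ g = g := by
  by_cases hg : g = 0
  · rw [hg, map_zero]
  have hτp : (fs_twist ξ g) ^ p = g ^ p := by
    rw [← map_pow, hgp, kd_twist_qExpand hξ]
  have hz : (fs_twist ξ g / g) ^ p = 1 := by
    rw [div_pow, hτp]
    exact div_self (pow_ne_zero p hg)
  obtain ⟨c, hc⟩ := kd_const_of_pow_eq_one hp hz
  have hτ : fs_twist ξ g = HahnSeries.C c * g := by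
    rw [← hc]; field_simp
  have hc1 := kd_twist_scalar_eq hg hτ
  -- `ord g ∈ n ℤ`
  have hordg : (p : ℤ) * g.order = (n : ℤ) * f.order := by
    have := congrArg HahnSeries.order hgp
    rw [HahnSeries.order_pow, fs_qExpand_order] at this
    simpa [nsmul_eq_mul] using this
  obtain ⟨k, hk⟩ := hord
  have hp0 : (p : ℤ) ≠ 0 := by exact_mod_cast hp
  have hgk : g.order = (n : ℤ) * k := by
    apply mul_left_cancel₀ hp0
    rw [hordg, hk]; ring
  have : ((ξ ^ g.order : Lˣ) : L) = 1 := by
    rw [hgk, zpow_mul, zpow_natCast, hξ, one_zpow, Units.val_one]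
  rw [hτ, hc1, this, map_one, one_mul]

end Fermat.Agent.JT3
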