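import Mathlib
import Fermat.Agent.JT3.Cover.Identities

/-!
# JT3 / S18, descent along the Hesse cover (prefix `kd_hes_`)

`E = K₁(μ)` with `27 μ³ (μ³ + 8)³ = j (μ³ - 1)³`, `j ∈ K₁`, `ω ∈ K₁` a primitive cube root of unity.
The twelve Möbius images `ω^c μ`, `ω^c s(ω^k μ)` (`s(x) = (x + 2)/(x - 1)`) are all the roots of
`27 X³ (X³ + 8)³ - j (X³ - 1)³`, so `E / K₁` is Galois (`kd_hes_isGalois`) with group a subgroup of
`A₄` (`kd_hes_aut_cases`).  If `ν ∈ Aut(E / K₁)` is the `3`-cycle `μ ↦ ω μ` and `g ∈ E` is fixed by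
`ν` with `g ^ p ∈ K₁` (all `p`-th roots of unity of `E` lying in `K₁`), then `g ∈ K₁`
(`kd_hes_descent`): the stabiliser of `g` contains `ν` and all commutators, and `A₄` is generated by
these.
-/

set_option autoImplicit false
set_option linter.style.haveILetI false
set_option linter.unusedSectionVars false

namespace Fermat.Agent.JT3

open Polynomial

/-! ### Identities in a field containing a primitive cube root of unity -/

section algebra

variable {L : Type*} [Field L]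

theorem kd_hes_cube_one {w : L} (hw : w ^ 2 + w + 1 = 0) : w ^ 3 = 1 := by
  linear_combination (w - 1) * hw

theorem kd_hes_w_ne_zero {w : L} (hw : w ^ 2 + w + 1 = 0) : w ≠ 0 := by
  rintro rfl
  norm_num at hw

/-- Cube roots: `a³ = b³` forces `a ∈ {b, ω b, ω² b}`. -/
theorem kd_hes_cube_eq {w a b : L} (hw : w ^ 2 + w + 1 = 0) (h : a ^ 3 = b ^ 3) :
    a = b ∨ a = w * b ∨ a = w ^ 2 * b := by
  have h1 : (a - b) * (a - w * b) * (a - w ^ 2 * b) = 0 := by
    linear_combination h + (-(a ^ 2 * b) + a * b ^ 2 * w - b ^ 3 * w + b ^ 3) * hw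
  rcases mul_eq_zero.1 h1 with h2 | h2
  · rcases mul_eq_zero.1 h2 with h3 | h3
    · exact Or.inl (sub_eq_zero.1 h3)
    · exact Or.inr (Or.inl (sub_eq_zero.1 h3))
  · exact Or.inr (Or.inr (sub_eq_zero.1 h2))

/-- The norm form of `A + C x + B x²` from `L(x)` to `L(x³)`. -/
theorem kd_hes_norm {w : L} (hw : w ^ 2 + w + 1 = 0) (A B C x : L) :
    (A + C * x + B * x ^ 2) * (A + C * (w * x) + B * (w * x) ^ 2) *
        (A + C * (w ^ 2 * x) + B * (w ^ 2 * x) ^ 2) =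
      A ^ 3 + C ^ 3 * x ^ 3 + B ^ 3 * x ^ 6 - 3 * A * B * C * x ^ 3 := by
  linear_combination (A ^ 2 * B * x ^ 2 * w ^ 2 - A ^ 2 * B * x ^ 2 * w + A ^ 2 * B * x ^ 2 +
    A ^ 2 * C * x + A * B ^ 2 * x ^ 4 * w ^ 4 - A * B ^ 2 * x ^ 4 * w ^ 3 +
    A * B ^ 2 * x ^ 4 * w ^ 2 + A * B * C * x ^ 3 * w ^ 3 + A * B * C * x ^ 3 * w ^ 2 -
    2 * A * B * C * x ^ 3 * w + 3 * A * B * C * x ^ 3 + A * C ^ 2 * x ^ 2 * w +
    B ^ 3 * x ^ 6 * w ^ 4 - B ^ 3 * x ^ 6 * w ^ 3 + B ^ 3 * x ^ 6 * w - B ^ 3 * x ^ 6 +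
    B ^ 2 * C * x ^ 5 * w ^ 4 + B * C ^ 2 * x ^ 4 * w ^ 3 + C ^ 3 * x ^ 3 * w -
    C ^ 3 * x ^ 3) * hw

/-- The factor attached to a cube root `z` of `t`. -/
theorem kd_hes_factor {t z y : L} (hz : z ^ 3 = t) :
    ((z - 1) * y) ^ 3 - (z + 2) ^ 3 =
      ((t - 1) * y ^ 3 - (t + 8)) + 3 * (y ^ 3 - 4) * z + -3 * (y ^ 3 + 2) * z ^ 2 := by
  linear_combination (y ^ 3 - 1) * hz

/-- The key identity: the resultant-like factorisation of `N(y) D(x) - N(x) D(y)`. -/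
theorem kd_hes_key (t u : L) :
    27 * u * (u + 8) ^ 3 * (t - 1) ^ 3 - 27 * t * (t + 8) ^ 3 * (u - 1) ^ 3 =
      27 * (u - t) * (((t - 1) * u - (t + 8)) ^ 3 + (3 * (u - 4)) ^ 3 * t +
        (-3 * (u + 2)) ^ 3 * t ^ 2 - 3 * ((t - 1) * u - (t + 8)) * (-3 * (u + 2)) *
          (3 * (u - 4)) * t) := by
  ring

/-- **The twelve roots**, cubed form. -/
theorem kd_hes_root_cases {w x y : L} (h3 : (3 : L) ≠ 0) (hw : w ^ 2 + w + 1 = 0)
    (h : cv_hesN y * cv_hesD x = cv_hesN x * cv_hesD y) :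
    y ^ 3 = x ^ 3 ∨ ((x - 1) * y) ^ 3 = (x + 2) ^ 3 ∨
      ((w * x - 1) * y) ^ 3 = (w * x + 2) ^ 3 ∨
        ((w ^ 2 * x - 1) * y) ^ 3 = (w ^ 2 * x + 2) ^ 3 := by
  have hw3 := kd_hes_cube_one hw
  have hk := kd_hes_key (x ^ 3) (y ^ 3)
  have h0 : 27 * y ^ 3 * (y ^ 3 + 8) ^ 3 * (x ^ 3 - 1) ^ 3 -
      27 * x ^ 3 * (x ^ 3 + 8) ^ 3 * (y ^ 3 - 1) ^ 3 = 0 := by
    unfold cv_hesN cv_hesD at h
    linear_combination h
  rw [h0] at hk
  have h27 : (27 : L) ≠ 0 := by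
    have : (27 : L) = 3 ^ 3 := by norm_num
    rw [this]
    exact pow_ne_zero 3 h3
  have hn := kd_hes_norm hw ((x ^ 3 - 1) * y ^ 3 - (x ^ 3 + 8)) (-3 * (y ^ 3 + 2))
    (3 * (y ^ 3 - 4)) x
  have e0 := kd_hes_factor (t := x ^ 3) (z := x) (y := y) rfl
  have e1 := kd_hes_factor (t := x ^ 3) (z := w * x) (y := y)
    (by rw [mul_pow, hw3, one_mul])
  have e2 := kd_hes_factor (t := x ^ 3) (z := w ^ 2 * x) (y := y)
    (by rw [mul_pow, ← pow_mul, pow_mul', hw3, one_pow, one_mul])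
  have hprod : (y ^ 3 - x ^ 3) * ((((x - 1) * y) ^ 3 - (x + 2) ^ 3) *
      (((w * x - 1) * y) ^ 3 - (w * x + 2) ^ 3) *
        (((w ^ 2 * x - 1) * y) ^ 3 - (w ^ 2 * x + 2) ^ 3)) = 0 := by
    have h5 : (27 : L) * ((y ^ 3 - x ^ 3) * ((((x - 1) * y) ^ 3 - (x + 2) ^ 3) *
      (((w * x - 1) * y) ^ 3 - (w * x + 2) ^ 3) *
        (((w ^ 2 * x - 1) * y) ^ 3 - (w ^ 2 * x + 2) ^ 3))) = 0 := by
      rw [e0, e1, e2]
      have : (x ^ 6 : L) = (x ^ 3) ^ 2 := by ring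
      rw [this] at hn
      linear_combination 27 * (y ^ 3 - x ^ 3) * hn - hk
    exact (mul_eq_zero.1 h5).resolve_left h27
  rcases mul_eq_zero.1 hprod with h6 | h6
  · exact Or.inl (sub_eq_zero.1 h6)
  rcases mul_eq_zero.1 h6 with h7 | h7
  · rcases mul_eq_zero.1 h7 with h8 | h8
    · exact Or.inr (Or.inl (sub_eq_zero.1 h8))
    · exact Or.inr (Or.inr (Or.inl (sub_eq_zero.1 h8)))
  · exact Or.inr (Or.inr (Or.inr (sub_eq_zero.1 h7)))

/-! ### The Möbius map `s(x) = (x + 2)/(x - 1)` -/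

/-- `s(x) = (x + 2)/(x - 1)`. -/
def kd_hes_s (x : L) : L := (x + 2) / (x - 1)

theorem kd_hes_map_s {L' F : Type*} [Field L'] [FunLike F L L'] [RingHomClass F L L'] (φ : F)
    (x : L) : φ (kd_hes_s x) = kd_hes_s (φ x) := by
  unfold kd_hes_s
  rw [map_div₀, map_add, map_sub, map_one, map_ofNat]

theorem kd_hes_pow_ne_one {w x : L} (hw : w ^ 2 + w + 1 = 0) (hx : x ^ 3 ≠ 1) (k : ℕ) :
    (w ^ k * x) ^ 3 ≠ 1 := by
  rw [mul_pow, ← pow_mul, mul_comm k 3, pow_mul, kd_hes_cube_one hw, one_pow, one_mul]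
  exact hx

theorem kd_hes_ne_one {x : L} (hx : x ^ 3 ≠ 1) : x - 1 ≠ 0 := by
  intro h
  apply hx
  rw [sub_eq_zero.1 h, one_pow]

/-- `s` is an involution. -/
theorem kd_hes_s_s (h3 : (3 : L) ≠ 0) {x : L} (hx : x - 1 ≠ 0) : kd_hes_s (kd_hes_s x) = x := by
  unfold kd_hes_s
  have h1 : (x + 2) / (x - 1) - 1 = 3 / (x - 1) := by
    field_simp
    ring
  have h2 : (x + 2) / (x - 1) + 2 = 3 * x / (x - 1) := by
    field_simp
    ring
  rw [h1, h2]
  field_simp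

/-- `m(x) = ω s(x)` has order three, first step: `m(m(x)) = (x + 2ω)/(x - ω)`. -/
theorem kd_hes_m_m (h3 : (3 : L) ≠ 0) {w x : L} (hw : w ^ 2 + w + 1 = 0) (hx : x ^ 3 ≠ 1) :
    w * kd_hes_s (w * kd_hes_s x) = (x + 2 * w) / (x - w) := by
  have hx1 : x - 1 ≠ 0 := kd_hes_ne_one hx
  have hxw : x - w ≠ 0 := by
    intro h
    apply hx
    rw [sub_eq_zero.1 h, kd_hes_cube_one hw]
  have hw1 : w - 1 ≠ 0 := by
    intro h
    have : w = 1 := sub_eq_zero.1 h
    rw [this] at hw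
    apply h3
    linear_combination hw
  unfold kd_hes_s
  have hden : w * ((x + 2) / (x - 1)) - 1 = (w - 1) * (x - w) / (x - 1) := by
    field_simp
    linear_combination hw
  have hnum : w * ((x + 2) / (x - 1)) + 2 = ((w + 2) * x + 2 * w - 2) / (x - 1) := by
    field_simp
    ring
  rw [hden, hnum]
  rw [div_div_div_cancel_right₀ hx1]
  rw [mul_div_assoc', div_eq_div_iff (mul_ne_zero hw1 hxw) hxw]
  linear_combination (x ^ 2 - x * w) * hw

/-- `m(x) = ω s(x)` has order three. -/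
theorem kd_hes_m_m_m (h3 : (3 : L) ≠ 0) {w x : L} (hw : w ^ 2 + w + 1 = 0) (hx : x ^ 3 ≠ 1) :
    w * kd_hes_s (w * kd_hes_s (w * kd_hes_s x)) = x := by
  have hxw : x - w ≠ 0 := by
    intro h
    apply hx
    rw [sub_eq_zero.1 h, kd_hes_cube_one hw]
  have hw0 := kd_hes_w_ne_zero hw
  rw [kd_hes_m_m h3 hw hx]
  unfold kd_hes_s
  have h1 : (x + 2 * w) / (x - w) - 1 = 3 * w / (x - w) := by
    field_simp
    ring
  have h2 : (x + 2 * w) / (x - w) + 2 = 3 * x / (x - w) := by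
    field_simp
    ring
  rw [h1, h2]
  field_simp

theorem kd_hes_of_cube {w z y : L} (hw : w ^ 2 + w + 1 = 0) (hz : z - 1 ≠ 0)
    (h : ((z - 1) * y) ^ 3 = (z + 2) ^ 3) : ∃ c : ℕ, y = w ^ c * kd_hes_s z := by
  unfold kd_hes_s
  rcases kd_hes_cube_eq hw h with h1 | h1 | h1
  · refine ⟨0, ?_⟩
    field_simp
    linear_combination h1
  · refine ⟨1, ?_⟩
    field_simp
    linear_combination h1
  · refine ⟨2, ?_⟩
    field_simp
    linear_combination h1

/-- **The twelve roots.** -/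
theorem kd_hes_root_mem {w x y : L} (h3 : (3 : L) ≠ 0) (hw : w ^ 2 + w + 1 = 0)
    (hx : x ^ 3 ≠ 1) (h : cv_hesN y * cv_hesD x = cv_hesN x * cv_hesD y) :
    ∃ c : ℕ, y = w ^ c * x ∨ ∃ k : ℕ, y = w ^ c * kd_hes_s (w ^ k * x) := by
  rcases kd_hes_root_cases h3 hw h with h1 | h1 | h1 | h1
  · rcases kd_hes_cube_eq hw h1 with h2 | h2 | h2
    · exact ⟨0, Or.inl (by rw [h2, pow_zero, one_mul])⟩
    · exact ⟨1, Or.inl (by rw [h2, pow_one])⟩
    · exact ⟨2, Or.inl h2⟩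
  · obtain ⟨c, hc⟩ := kd_hes_of_cube hw (kd_hes_ne_one hx) h1
    exact ⟨c, Or.inr ⟨0, by rw [pow_zero, one_mul]; exact hc⟩⟩
  · have hz := kd_hes_ne_one (kd_hes_pow_ne_one hw hx 1)
    rw [pow_one] at hz
    obtain ⟨c, hc⟩ := kd_hes_of_cube hw hz h1
    exact ⟨c, Or.inr ⟨1, by rw [pow_one]; exact hc⟩⟩
  · obtain ⟨c, hc⟩ := kd_hes_of_cube hw (kd_hes_ne_one (kd_hes_pow_ne_one hw hx 2)) h1
    exact ⟨c, Or.inr ⟨2, hc⟩⟩

/-- The twelve Möbius images are roots. -/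
theorem kd_hes_rel_of_mem {w x y j : L} (hw : w ^ 2 + w + 1 = 0)
    (hx : x ^ 3 ≠ 1) (hrel : cv_hesN x = j * cv_hesD x)
    (hy : ∃ c : ℕ, y = w ^ c * x ∨ ∃ k : ℕ, y = w ^ c * kd_hes_s (w ^ k * x)) :
    cv_hesN y = j * cv_hesD y := by
  have hw3 := kd_hes_cube_one hw
  have hpow : ∀ c : ℕ, (w ^ c) ^ 3 = 1 := fun c => by
    rw [← pow_mul, mul_comm, pow_mul, hw3, one_pow]
  obtain ⟨c, rfl | ⟨k, rfl⟩⟩ := hy
  · rw [cv_hesN_mul (hpow c), cv_hesD_mul (hpow c), hrel]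
  · rw [cv_hesN_mul (hpow c), cv_hesD_mul (hpow c)]
    have hz := kd_hes_ne_one (kd_hes_pow_ne_one hw hx k)
    have h : kd_hes_s (w ^ k * x) * (w ^ k * x - 1) = w ^ k * x + 2 := by
      unfold kd_hes_s
      exact div_mul_cancel₀ _ hz
    have hN := cv_hesN_moebius h
    have hD := cv_hesD_moebius h
    rw [cv_hesN_mul (hpow k)] at hN
    rw [cv_hesD_mul (hpow k)] at hD
    have h12 : (w ^ k * x - 1) ^ 12 ≠ 0 := pow_ne_zero 12 hz
    apply mul_right_cancel₀ h12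
    rw [hN, mul_assoc, hD, hrel]
    ring

end algebra

/-! ### The Galois extension `K₁(μ) / K₁` -/

section galois

variable {K1 E : Type*} [Field K1] [Field E] [Algebra K1 E]

/-- The polynomial `27 X³ (X³ + 8)³ - j (X³ - 1)³`. -/
noncomputable def kd_hes_P (j : K1) : K1[X] :=
  C 27 * X ^ 3 * (X ^ 3 + C 8) ^ 3 - C j * (X ^ 3 - 1) ^ 3

theorem kd_hes_aeval_P {A : Type*} [CommRing A] [Algebra K1 A] (j : K1) (y : A) :
    aeval y (kd_hes_P j) = cv_hesN y - algebraMap K1 A j * cv_hesD y := by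
  unfold kd_hes_P cv_hesN cv_hesD
  simp only [map_sub, map_mul, map_pow, map_add, aeval_X, aeval_C, map_one, map_ofNat]

theorem kd_hes_P_ne_zero [CharZero K1] (j : K1) : kd_hes_P j ≠ 0 := by
  intro h
  have h1 := congrArg (eval 1) h
  unfold kd_hes_P at h1
  simp only [eval_sub, eval_mul, eval_pow, eval_add, eval_X, eval_C, eval_one, eval_zero,
    one_pow, sub_self, ne_eq, OfNat.ofNat_ne_zero, not_false_eq_true, zero_pow, mul_zero,
    sub_zero, mul_one] at h1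
  norm_num at h1

theorem kd_hes_w_rel {w : K1} (hw : IsPrimitiveRoot w 3) : w ^ 2 + w + 1 = 0 := by
  have h1 : w ^ 3 = 1 := hw.pow_eq_one
  have h2 : w ≠ 1 := hw.ne_one (by norm_num)
  have h3 : (w - 1) * (w ^ 2 + w + 1) = 0 := by linear_combination h1
  exact (mul_eq_zero.1 h3).resolve_left (sub_ne_zero.2 h2)

variable [CharZero K1] (mu : E) (j w : K1)

section basic

variable (hw : IsPrimitiveRoot w 3)
  (hrel : cv_hesN mu = algebraMap K1 E j * cv_hesD mu) (h1 : mu ^ 3 ≠ 1)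

include hw hrel h1

/-- Every root of `P` in an extension `Ω` of `E` is one of the twelve Möbius images of `μ`. -/
theorem kd_hes_root_mem_range {Ω : Type*} [Field Ω] [Algebra E Ω] [Algebra K1 Ω]
    [IsScalarTower K1 E Ω] (y : Ω) (hy : aeval y (kd_hes_P j) = 0) :
    ∃ c : ℕ, y = algebraMap E Ω (algebraMap K1 E w ^ c * mu) ∨
      ∃ k : ℕ, y = algebraMap E Ω
        (algebraMap K1 E w ^ c * kd_hes_s (algebraMap K1 E w ^ k * mu)) := by
  haveI : CharZero E := charZero_of_injective_algebraMap (algebraMap K1 E).injective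
  haveI : CharZero Ω := charZero_of_injective_algebraMap (algebraMap E Ω).injective
  have h3 : (3 : Ω) ≠ 0 := by norm_num
  set ι := algebraMap E Ω with hι
  have hwΩ : (ι (algebraMap K1 E w)) ^ 2 + ι (algebraMap K1 E w) + 1 = 0 := by
    have := kd_hes_w_rel hw
    have h2 := congrArg (fun z => ι (algebraMap K1 E z)) this
    simpa using h2
  have hmuΩ : (ι mu) ^ 3 ≠ 1 := by
    intro h
    apply h1
    apply ι.injective
    rw [map_pow, h, map_one]
  rw [kd_hes_aeval_P, sub_eq_zero] at hy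
  have hrelΩ : cv_hesN (ι mu) = algebraMap K1 Ω j * cv_hesD (ι mu) := by
    have := congrArg ι hrel
    unfold cv_hesN cv_hesD at this ⊢
    rw [IsScalarTower.algebraMap_apply K1 E Ω]
    simp only [map_mul, map_pow, map_add, map_sub, map_one, map_ofNat] at this
    exact this
  have hcross : cv_hesN y * cv_hesD (ι mu) = cv_hesN (ι mu) * cv_hesD y := by
    rw [hy, hrelΩ]
    ring
  obtain ⟨c, hc | ⟨k, hc⟩⟩ := kd_hes_root_mem h3 hwΩ hmuΩ hcross
  · refine ⟨c, Or.inl ?_⟩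
    rw [hc, map_mul, map_pow]
  · refine ⟨c, Or.inr ⟨k, ?_⟩⟩
    rw [hc, map_mul, map_pow, kd_hes_map_s, map_mul, map_pow]

theorem kd_hes_splits : ((kd_hes_P j).map (algebraMap K1 E)).Splits := by
  let Ω := AlgebraicClosure E
  refine Splits.of_splits_map (algebraMap E Ω) (IsAlgClosed.splits _) ?_
  intro a ha
  rw [mem_roots', IsRoot.def, Polynomial.map_map, ← IsScalarTower.algebraMap_eq,
    eval_map_algebraMap] at ha
  obtain ⟨c, hc | ⟨k, hc⟩⟩ := kd_hes_root_mem_range mu j w hw hrel h1 a ha.2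
  · exact ⟨_, hc.symm⟩
  · exact ⟨_, hc.symm⟩

theorem kd_hes_aeval_mu : aeval mu (kd_hes_P j) = 0 := by
  rw [kd_hes_aeval_P, hrel, sub_self]

end basic

variable (hgen : IntermediateField.adjoin K1 {mu} = ⊤) (hw : IsPrimitiveRoot w 3)
  (hrel : cv_hesN mu = algebraMap K1 E j * cv_hesD mu) (h1 : mu ^ 3 ≠ 1)

include hgen hw hrel h1

theorem kd_hes_algebra_adjoin_eq_top : Algebra.adjoin K1 ({mu} : Set E) = ⊤ := by
  have hint : IsIntegral K1 mu :=
    isAlgebraic_iff_isIntegral.1 ⟨kd_hes_P j, kd_hes_P_ne_zero j, kd_hes_aeval_mu mu j w hw hrel h1⟩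
  rw [← IntermediateField.adjoin_simple_toSubalgebra_of_isAlgebraic hint.isAlgebraic, hgen,
    IntermediateField.top_toSubalgebra]

theorem kd_hes_isSplittingField : IsSplittingField K1 E (kd_hes_P j) := by
  refine ⟨kd_hes_splits mu j w hw hrel h1, ?_⟩
  rw [eq_top_iff, ← kd_hes_algebra_adjoin_eq_top mu j w hgen hw hrel h1]
  apply Algebra.adjoin_mono
  rintro x hx
  rw [Set.mem_singleton_iff.1 hx, mem_rootSet]
  exact ⟨kd_hes_P_ne_zero j, kd_hes_aeval_mu mu j w hw hrel h1⟩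

theorem kd_hes_finiteDimensional : FiniteDimensional K1 E :=
  haveI := kd_hes_isSplittingField mu j w hgen hw hrel h1
  IsSplittingField.finiteDimensional E (kd_hes_P j)

/-- **`K₁(μ) / K₁` is Galois.** -/
theorem kd_hes_isGalois : IsGalois K1 E := by
  haveI := kd_hes_isSplittingField mu j w hgen hw hrel h1
  haveI := kd_hes_finiteDimensional mu j w hgen hw hrel h1
  haveI : Normal K1 E := Normal.of_isSplittingField (kd_hes_P j)
  exact ⟨⟩

/-- An automorphism is determined by its value on `μ`. -/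
theorem kd_hes_aut_ext {σ τ : E ≃ₐ[K1] E} (h : σ mu = τ mu) : σ = τ := by
  have h2 : (σ : E →ₐ[K1] E) = (τ : E →ₐ[K1] E) :=
    AlgHom.ext_of_adjoin_eq_top (kd_hes_algebra_adjoin_eq_top mu j w hgen hw hrel h1)
      (fun x hx => by rw [Set.mem_singleton_iff.1 hx]; exact h)
  ext x
  exact congrArg (fun f : E →ₐ[K1] E => f x) h2

/-- **The automorphisms are Möbius.** -/
theorem kd_hes_aut_cases (σ : E ≃ₐ[K1] E) :
    ∃ c : ℕ, σ mu = algebraMap K1 E w ^ c * mu ∨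
      ∃ k : ℕ, σ mu = algebraMap K1 E w ^ c * kd_hes_s (algebraMap K1 E w ^ k * mu) := by
  have h : aeval (σ mu) (kd_hes_P j) = 0 := by
    have h0 : aeval ((σ : E →ₐ[K1] E) mu) (kd_hes_P j) = (σ : E →ₐ[K1] E) (aeval mu (kd_hes_P j)) :=
      aeval_algHom_apply (σ : E →ₐ[K1] E) mu (kd_hes_P j)
    rw [kd_hes_aeval_mu mu j w hw hrel h1, map_zero] at h0
    exact h0
  obtain ⟨c, hc | ⟨k, hc⟩⟩ := kd_hes_root_mem_range (Ω := E) mu j w hw hrel h1 (σ mu) h
  · exact ⟨c, Or.inl hc⟩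
  · exact ⟨c, Or.inr ⟨k, hc⟩⟩

end galois

/-! ### The descent -/

section descent

variable {K1 E : Type*} [Field K1] [Field E] [Algebra K1 E]

theorem kd_hes_nu_pow_mu (mu : E) (w : K1) (nu : E ≃ₐ[K1] E)
    (hnu : nu mu = algebraMap K1 E w * mu) (c : ℕ) :
    (nu ^ c) mu = algebraMap K1 E w ^ c * mu := by
  induction c with
  | zero => simp
  | succ c ih =>
    rw [pow_succ', AlgEquiv.mul_apply, ih, map_mul, map_pow, AlgEquiv.commutes, hnu, pow_succ]
    ring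

theorem kd_hes_pow_fix (nu : E ≃ₐ[K1] E) {g : E} (hnug : nu g = g) (c : ℕ) : (nu ^ c) g = g := by
  induction c with
  | zero => simp
  | succ c ih => rw [pow_succ', AlgEquiv.mul_apply, ih, hnug]

/-- `σ g / g` is a `p`-th root of unity, hence a constant. -/
theorem kd_hes_scalar (p : ℕ) {g : E} (hg : g ≠ 0) (hgp : g ^ p ∈ (algebraMap K1 E).range)
    (hroots : ∀ z : E, z ^ p = 1 → z ∈ (algebraMap K1 E).range) (σ : E ≃ₐ[K1] E) :
    ∃ z : K1, σ g = algebraMap K1 E z * g := by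
  obtain ⟨a, ha⟩ := hgp
  have h : (σ g / g) ^ p = 1 := by
    rw [div_pow, ← map_pow, ← ha, AlgEquiv.commutes]
    exact div_self (by rw [ha]; exact pow_ne_zero p hg)
  obtain ⟨z, hz⟩ := hroots _ h
  exact ⟨z, by rw [hz]; field_simp⟩

variable [CharZero K1] (mu : E) (j w : K1)
  (hgen : IntermediateField.adjoin K1 {mu} = ⊤) (hw : IsPrimitiveRoot w 3)
  (hrel : cv_hesN mu = algebraMap K1 E j * cv_hesD mu) (h1 : mu ^ 3 ≠ 1)
  (nu : E ≃ₐ[K1] E) (hnu : nu mu = algebraMap K1 E w * mu)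
  (p : ℕ) (g : E) (hgp : g ^ p ∈ (algebraMap K1 E).range) (hnug : nu g = g)
  (hroots : ∀ z : E, z ^ p = 1 → z ∈ (algebraMap K1 E).range)

include hgen hw hrel h1 hnu hgp hnug hroots

/-- An automorphism acting on `μ` as the involution `s` fixes `g`. -/
theorem kd_hes_invol_fix (hg : g ≠ 0) (a : E ≃ₐ[K1] E) (ha : a mu = kd_hes_s mu) : a g = g := by
  haveI : CharZero E := charZero_of_injective_algebraMap (algebraMap K1 E).injective
  have h3 : (3 : E) ≠ 0 := by norm_num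
  have hW : algebraMap K1 E w ^ 2 + algebraMap K1 E w + 1 = 0 := by
    have h2 := congrArg (algebraMap K1 E) (kd_hes_w_rel hw)
    simpa using h2
  have haa : a * a = 1 := by
    apply kd_hes_aut_ext mu j w hgen hw hrel h1
    rw [AlgEquiv.mul_apply, ha, kd_hes_map_s, ha, kd_hes_s_s h3 (kd_hes_ne_one h1),
      AlgEquiv.one_apply]
  have hb : (a * nu) mu = algebraMap K1 E w * kd_hes_s mu := by
    rw [AlgEquiv.mul_apply, hnu, map_mul, AlgEquiv.commutes, ha]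
  have hbbb : (a * nu) * (a * nu) * (a * nu) = 1 := by
    apply kd_hes_aut_ext mu j w hgen hw hrel h1
    rw [AlgEquiv.mul_apply, AlgEquiv.mul_apply, hb, map_mul, AlgEquiv.commutes, kd_hes_map_s, hb,
      map_mul, AlgEquiv.commutes, kd_hes_map_s, map_mul, AlgEquiv.commutes, kd_hes_map_s, hb,
      kd_hes_m_m_m h3 hW h1, AlgEquiv.one_apply]
  obtain ⟨z, hz⟩ := kd_hes_scalar p hg hgp hroots a
  have hbg : (a * nu) g = algebraMap K1 E z * g := by
    rw [AlgEquiv.mul_apply, hnug, hz]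
  have e2 : algebraMap K1 E z ^ 2 = 1 := by
    have h := congrArg (fun f : E ≃ₐ[K1] E => f g) haa
    simp only [AlgEquiv.mul_apply, AlgEquiv.one_apply, hz, map_mul, AlgEquiv.commutes] at h
    apply mul_right_cancel₀ hg
    linear_combination h
  have e3 : algebraMap K1 E z ^ 3 = 1 := by
    have h := congrArg (fun f : E ≃ₐ[K1] E => f g) hbbb
    simp only [AlgEquiv.mul_apply, AlgEquiv.one_apply, hnug, hz, map_mul, AlgEquiv.commutes] at h
    apply mul_right_cancel₀ hg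
    linear_combination h
  have e1 : algebraMap K1 E z = 1 := by
    linear_combination e3 - algebraMap K1 E z * e2
  rw [hz, e1, one_mul]

/-- Every automorphism fixes `g`. -/
theorem kd_hes_fixed (hg : g ≠ 0) (σ : E ≃ₐ[K1] E) : σ g = g := by
  have hW3 : algebraMap K1 E w ^ 3 = 1 := by
    rw [← map_pow, hw.pow_eq_one, map_one]
  obtain ⟨c, hc | ⟨k, hc⟩⟩ := kd_hes_aut_cases mu j w hgen hw hrel h1 σ
  · have hσ : σ = nu ^ c :=
      kd_hes_aut_ext mu j w hgen hw hrel h1 (by rw [hc, kd_hes_nu_pow_mu mu w nu hnu c])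
    rw [hσ, kd_hes_pow_fix nu hnug c]
  · have ha : (nu ^ (2 * k) * σ * nu ^ (2 * c)) mu = kd_hes_s mu := by
      rw [AlgEquiv.mul_apply, AlgEquiv.mul_apply, kd_hes_nu_pow_mu mu w nu hnu (2 * c), map_mul,
        map_pow, AlgEquiv.commutes, hc, map_mul, map_pow, AlgEquiv.commutes, map_mul, map_pow,
        AlgEquiv.commutes, kd_hes_map_s, map_mul, map_pow, AlgEquiv.commutes,
        kd_hes_nu_pow_mu mu w nu hnu (2 * k), ← mul_assoc, ← pow_add, ← mul_assoc (_ ^ k),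
        ← pow_add]
      have e1 : 2 * c + c = 3 * c := by ring
      have e2 : k + 2 * k = 3 * k := by ring
      rw [e1, e2, pow_mul, pow_mul, hW3, one_pow, one_pow, one_mul, one_mul]
    have hag : (nu ^ (2 * k) * σ * nu ^ (2 * c)) g = σ g := by
      obtain ⟨z, hz⟩ := kd_hes_scalar p hg hgp hroots σ
      rw [AlgEquiv.mul_apply, AlgEquiv.mul_apply, kd_hes_pow_fix nu hnug, hz, map_mul,
        AlgEquiv.commutes, kd_hes_pow_fix nu hnug]
    rw [← hag]
    exact kd_hes_invol_fix mu j w hgen hw hrel h1 nu hnu p g hgp hnug hroots hg _ ha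

/-- **Descent along the Hesse cover.** -/
theorem kd_hes_descent : g ∈ (algebraMap K1 E).range := by
  by_cases hg : g = 0
  · exact ⟨0, by rw [hg, map_zero]⟩
  haveI := kd_hes_finiteDimensional mu j w hgen hw hrel h1
  haveI := kd_hes_isGalois mu j w hgen hw hrel h1
  have h : g ∈ (⊥ : IntermediateField K1 E) :=
    (IsGalois.mem_bot_iff_fixed g).2
      (kd_hes_fixed mu j w hgen hw hrel h1 nu hnu p g hgp hnug hroots hg)
  exact IntermediateField.mem_bot.1 h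

end descent

end Fermat.Agent.JT3
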