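/-
JT3 (helper7): node [KD-LEG], abstract half = Kummer descent along the Legendre cover.

`E = K₁(λ)`, `256 (λ² - λ + 1)³ = j λ² (λ - 1)²` with `j ∈ K₁` (characteristic zero).  Then
`E / K₁` is Galois (`kd_leg_isGalois`), every automorphism sends `λ` to one of the six anharmonic
images (`kd_leg_aut_cases`), and if `μ ∈ Aut(E/K₁)` acts as `λ ↦ λ/(λ-1)` then every `g ∈ E` with
`g ^ p ∈ K₁`, `μ g = g` lies in `K₁` (`kd_leg_descent`), provided the `p`-th roots of unity of `E`
lie in `K₁`.  (Twin of helper23's `KDescent/Hesse.lean`; same character trick: `σ g = z g` and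
`z² = z³ = 1`.)  Prefix `kd_leg_`.
-/
import Mathlib
import Fermat.Agent.JT3.KDescent.Hesse

set_option autoImplicit false
set_option linter.unusedSectionVars false
set_option linter.style.haveILetI false

namespace Fermat.Agent.JT3

open Polynomial

/-! ### Field identities -/

section algebra

variable {L : Type*} [Field L]

/-- the six roots: from the cross relation `N(y) D(x) = N(x) D(y)` -/
theorem kd_leg_root_cases {x y : L} (h2 : (2 : L) ≠ 0) (hx0 : x ≠ 0) (hx1 : x ≠ 1)
    (hcross : 256 * (y ^ 2 - y + 1) ^ 3 * (x ^ 2 * (x - 1) ^ 2)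
      = 256 * (x ^ 2 - x + 1) ^ 3 * (y ^ 2 * (y - 1) ^ 2)) :
    y = x ∨ y = 1 - x ∨ y = 1 / x ∨ y = 1 / (1 - x) ∨ y = (x - 1) / x ∨ y = x / (x - 1) := by
  have hx1' : x - 1 ≠ 0 := sub_ne_zero.mpr hx1
  have hx1'' : 1 - x ≠ 0 := sub_ne_zero.mpr (Ne.symm hx1)
  have h256 : (256 : L) ≠ 0 := by
    have : (256 : L) = 2 ^ 8 := by norm_num
    rw [this]; exact pow_ne_zero 8 h2
  have hprod : (y - x) * (y - 1 + x) * (x * y - 1) * ((1 - x) * y - 1) * (x * y - x + 1)
      * ((x - 1) * y - x) = 0 := by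
    have : (256 : L) * ((y - x) * (y - 1 + x) * (x * y - 1) * ((1 - x) * y - 1)
        * (x * y - x + 1) * ((x - 1) * y - x)) = 0 := by
      linear_combination (-1 : L) * hcross
    exact (mul_eq_zero.mp this).resolve_left h256
  rcases mul_eq_zero.mp hprod with h | h
  · rcases mul_eq_zero.mp h with h | h
    · rcases mul_eq_zero.mp h with h | h
      · rcases mul_eq_zero.mp h with h | h
        · rcases mul_eq_zero.mp h with h | h
          · left; exact sub_eq_zero.mp h
          · right; left; linear_combination h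
        · right; right; left
          rw [eq_div_iff hx0]; linear_combination h
      · right; right; right; left
        rw [eq_div_iff hx1'']; linear_combination h
    · right; right; right; right; left
      rw [eq_div_iff hx0]; linear_combination h
  · right; right; right; right; right
    rw [eq_div_iff hx1']; linear_combination h

/-- conversely the six Möbius images satisfy the cross relation -/
theorem kd_leg_rel_of_mem {x y : L} (hx0 : x ≠ 0) (hx1 : x ≠ 1)
    (h : y = x ∨ y = 1 - x ∨ y = 1 / x ∨ y = 1 / (1 - x) ∨ y = (x - 1) / x ∨ y = x / (x - 1)) :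
    256 * (y ^ 2 - y + 1) ^ 3 * (x ^ 2 * (x - 1) ^ 2)
      = 256 * (x ^ 2 - x + 1) ^ 3 * (y ^ 2 * (y - 1) ^ 2) := by
  have hx1' : x - 1 ≠ 0 := sub_ne_zero.mpr hx1
  have hx1'' : 1 - x ≠ 0 := sub_ne_zero.mpr (Ne.symm hx1)
  rcases h with rfl | rfl | rfl | rfl | rfl | rfl
  · ring
  · ring
  · field_simp; ring
  · field_simp; ring
  · field_simp; ring
  · field_simp; ring

section ids

variable (x : L) (h0 : x ≠ 0) (h1' : 1 - x ≠ 0) (h1'' : x - 1 ≠ 0)
include h0 h1' h1''

theorem kd_leg_id1 : (1 - x) / ((1 - x) - 1) = (x - 1) / x := by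
  have : (1 - x) - 1 = -x := by ring
  rw [this, div_neg, ← neg_div]; congr 1; ring

theorem kd_leg_id2 : (1 / x) / (1 / x - 1) = 1 / (1 - x) := by
  have : 1 / x - 1 = (1 - x) / x := by field_simp
  rw [this]; field_simp

theorem kd_leg_id3 : (1 / (1 - x)) / (1 / (1 - x) - 1) = 1 / x := by
  have : 1 / (1 - x) - 1 = x / (1 - x) := by field_simp; ring
  rw [this]; field_simp

theorem kd_leg_id4 : ((x - 1) / x) / ((x - 1) / x - 1) = 1 - x := by
  have : (x - 1) / x - 1 = -1 / x := by field_simp; ring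
  rw [this]; field_simp; ring

theorem kd_leg_id5 : 1 - 1 / (1 - x) = -x / (1 - x) := by field_simp; ring

theorem kd_leg_id6 : 1 / (-x / (1 - x)) = (x - 1) / x := by field_simp; ring

theorem kd_leg_id7 : 1 - (x - 1) / x = 1 / x := by field_simp; ring

theorem kd_leg_id8 : ((x - 1) / x - 1) / ((x - 1) / x) = 1 / (1 - x) := by
  have : (x - 1) / x - 1 = -1 / x := by field_simp; ring
  rw [this]; field_simp; ring

theorem kd_leg_id9 : 1 / (1 - (x - 1) / x) = x := by
  rw [kd_leg_id7 x h0 h1' h1'']; field_simp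

theorem kd_leg_id10 : (1 / (1 - x) - 1) / (1 / (1 - x)) = x := by
  have : 1 / (1 - x) - 1 = x / (1 - x) := by field_simp; ring
  rw [this]; field_simp

end ids

end algebra

/-! ### The Galois extension `K₁(λ) / K₁` -/

section galois

variable {K1 E : Type*} [Field K1] [Field E] [Algebra K1 E]

/-- The polynomial `256 (X² - X + 1)³ - j X² (X - 1)²`. -/
noncomputable def kd_leg_P (j : K1) : K1[X] :=
  C 256 * (X ^ 2 - X + 1) ^ 3 - C j * X ^ 2 * (X - 1) ^ 2

theorem kd_leg_aeval_P {A : Type*} [CommRing A] [Algebra K1 A] (j : K1) (y : A) :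
    aeval y (kd_leg_P j) = 256 * (y ^ 2 - y + 1) ^ 3 - algebraMap K1 A j * y ^ 2 * (y - 1) ^ 2 := by
  unfold kd_leg_P
  simp only [map_sub, map_mul, map_pow, map_add, aeval_X, aeval_C, map_one, map_ofNat]

theorem kd_leg_P_ne_zero [CharZero K1] (j : K1) : kd_leg_P j ≠ 0 := by
  intro h
  have h1 := congrArg (eval 1) h
  unfold kd_leg_P at h1
  simp only [eval_sub, eval_mul, eval_pow, eval_add, eval_X, eval_C, eval_one, eval_zero,
    one_pow, sub_self, ne_eq, OfNat.ofNat_ne_zero, not_false_eq_true, zero_pow, mul_zero,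
    sub_zero, mul_one, zero_add] at h1

variable [CharZero K1] (lam : E) (j : K1)

section basic

variable (hrel : 256 * (lam ^ 2 - lam + 1) ^ 3 = algebraMap K1 E j * lam ^ 2 * (lam - 1) ^ 2)
  (h0 : lam ≠ 0) (h1 : lam ≠ 1)

include hrel h0 h1

/-- Every root of `P` in an extension `Ω` of `E` is one of the six Möbius images of `λ`. -/
theorem kd_leg_root_mem_range {Ω : Type*} [Field Ω] [Algebra E Ω] [Algebra K1 Ω]
    [IsScalarTower K1 E Ω] (y : Ω) (hy : aeval y (kd_leg_P j) = 0) :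
    y = algebraMap E Ω lam ∨ y = algebraMap E Ω (1 - lam) ∨ y = algebraMap E Ω (1 / lam) ∨
      y = algebraMap E Ω (1 / (1 - lam)) ∨ y = algebraMap E Ω ((lam - 1) / lam) ∨
      y = algebraMap E Ω (lam / (lam - 1)) := by
  haveI : CharZero E := charZero_of_injective_algebraMap (algebraMap K1 E).injective
  haveI : CharZero Ω := charZero_of_injective_algebraMap (algebraMap E Ω).injective
  have h2 : (2 : Ω) ≠ 0 := by norm_num
  set ι := algebraMap E Ω with hι
  have h0Ω : ι lam ≠ 0 := (map_ne_zero ι).mpr h0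
  have h1Ω : ι lam ≠ 1 := by
    intro h
    apply h1
    apply ι.injective
    rw [h, map_one]
  rw [kd_leg_aeval_P, sub_eq_zero] at hy
  have hrelΩ : 256 * ((ι lam) ^ 2 - ι lam + 1) ^ 3
      = algebraMap K1 Ω j * (ι lam) ^ 2 * (ι lam - 1) ^ 2 := by
    have := congrArg ι hrel
    rw [IsScalarTower.algebraMap_apply K1 E Ω]
    simp only [map_mul, map_pow, map_add, map_sub, map_one, map_ofNat] at this
    exact this
  have hcross : 256 * (y ^ 2 - y + 1) ^ 3 * ((ι lam) ^ 2 * (ι lam - 1) ^ 2)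
      = 256 * ((ι lam) ^ 2 - ι lam + 1) ^ 3 * (y ^ 2 * (y - 1) ^ 2) := by
    rw [hy, hrelΩ]
    ring
  have hcases := kd_leg_root_cases h2 h0Ω h1Ω hcross
  simpa only [map_sub, map_one, map_div₀] using hcases

theorem kd_leg_splits : ((kd_leg_P j).map (algebraMap K1 E)).Splits := by
  let Ω := AlgebraicClosure E
  refine Splits.of_splits_map (algebraMap E Ω) (IsAlgClosed.splits _) ?_
  intro a ha
  rw [mem_roots', IsRoot.def, Polynomial.map_map, ← IsScalarTower.algebraMap_eq,
    eval_map_algebraMap] at ha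
  rcases kd_leg_root_mem_range lam j hrel h0 h1 a ha.2 with h | h | h | h | h | h <;>
    exact ⟨_, h.symm⟩

theorem kd_leg_aeval_lam : aeval lam (kd_leg_P j) = 0 := by
  rw [kd_leg_aeval_P, hrel, sub_self]

end basic

variable (hgen : IntermediateField.adjoin K1 {lam} = ⊤)
  (hrel : 256 * (lam ^ 2 - lam + 1) ^ 3 = algebraMap K1 E j * lam ^ 2 * (lam - 1) ^ 2)
  (h0 : lam ≠ 0) (h1 : lam ≠ 1)

include hgen hrel h0 h1

theorem kd_leg_algebra_adjoin_eq_top : Algebra.adjoin K1 ({lam} : Set E) = ⊤ := by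
  have hint : IsIntegral K1 lam :=
    isAlgebraic_iff_isIntegral.1 ⟨kd_leg_P j, kd_leg_P_ne_zero j, kd_leg_aeval_lam lam j hrel h0 h1⟩
  rw [← IntermediateField.adjoin_simple_toSubalgebra_of_isAlgebraic hint.isAlgebraic, hgen,
    IntermediateField.top_toSubalgebra]

theorem kd_leg_isSplittingField : IsSplittingField K1 E (kd_leg_P j) := by
  refine ⟨kd_leg_splits lam j hrel h0 h1, ?_⟩
  rw [eq_top_iff, ← kd_leg_algebra_adjoin_eq_top lam j hgen hrel h0 h1]
  apply Algebra.adjoin_mono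
  rintro x hx
  rw [Set.mem_singleton_iff.1 hx, mem_rootSet]
  exact ⟨kd_leg_P_ne_zero j, kd_leg_aeval_lam lam j hrel h0 h1⟩

theorem kd_leg_finiteDimensional : FiniteDimensional K1 E :=
  haveI := kd_leg_isSplittingField lam j hgen hrel h0 h1
  IsSplittingField.finiteDimensional E (kd_leg_P j)

theorem kd_leg_normal : Normal K1 E :=
  haveI := kd_leg_isSplittingField lam j hgen hrel h0 h1
  Normal.of_isSplittingField (kd_leg_P j)

/-- **`K₁(λ) / K₁` is Galois.** -/
theorem kd_leg_isGalois : IsGalois K1 E := by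
  haveI := kd_leg_finiteDimensional lam j hgen hrel h0 h1
  haveI : Normal K1 E := kd_leg_normal lam j hgen hrel h0 h1
  exact ⟨⟩

/-- An automorphism is determined by its value on `λ`. -/
theorem kd_leg_aut_ext {σ τ : E ≃ₐ[K1] E} (h : σ lam = τ lam) : σ = τ := by
  have h2 : (σ : E →ₐ[K1] E) = (τ : E →ₐ[K1] E) :=
    AlgHom.ext_of_adjoin_eq_top (kd_leg_algebra_adjoin_eq_top lam j hgen hrel h0 h1)
      (fun x hx => by rw [Set.mem_singleton_iff.1 hx]; exact h)
  ext x
  exact congrArg (fun f : E →ₐ[K1] E => f x) h2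

/-- **The automorphisms are anharmonic.** -/
theorem kd_leg_aut_cases (σ : E ≃ₐ[K1] E) :
    σ lam = lam ∨ σ lam = 1 - lam ∨ σ lam = 1 / lam ∨ σ lam = 1 / (1 - lam) ∨
      σ lam = (lam - 1) / lam ∨ σ lam = lam / (lam - 1) := by
  have h : aeval (σ lam) (kd_leg_P j) = 0 := by
    have h0' : aeval ((σ : E →ₐ[K1] E) lam) (kd_leg_P j)
        = (σ : E →ₐ[K1] E) (aeval lam (kd_leg_P j)) :=
      aeval_algHom_apply (σ : E →ₐ[K1] E) lam (kd_leg_P j)
    rw [kd_leg_aeval_lam lam j hrel h0 h1, map_zero] at h0'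
    exact h0'
  exact kd_leg_root_mem_range (Ω := E) lam j hrel h0 h1 (σ lam) h

end galois

/-! ### The descent -/

section descent

variable {K1 E : Type*} [Field K1] [Field E] [Algebra K1 E] [CharZero K1] (lam : E) (j : K1)
  (hgen : IntermediateField.adjoin K1 {lam} = ⊤)
  (hrel : 256 * (lam ^ 2 - lam + 1) ^ 3 = algebraMap K1 E j * lam ^ 2 * (lam - 1) ^ 2)
  (h0 : lam ≠ 0) (h1 : lam ≠ 1)

include hgen hrel h0 h1

theorem kd_leg_sq_eq_one_A {τ : E ≃ₐ[K1] E} (hτ : τ lam = 1 - lam) : τ * τ = 1 := by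
  apply kd_leg_aut_ext lam j hgen hrel h0 h1
  rw [AlgEquiv.mul_apply, hτ, map_sub, map_one, hτ, AlgEquiv.one_apply]
  ring

theorem kd_leg_sq_eq_one_B {τ : E ≃ₐ[K1] E} (hτ : τ lam = 1 / lam) : τ * τ = 1 := by
  apply kd_leg_aut_ext lam j hgen hrel h0 h1
  rw [AlgEquiv.mul_apply, hτ, map_div₀, map_one, hτ, AlgEquiv.one_apply]
  field_simp

theorem kd_leg_cube_eq_one_C {τ : E ≃ₐ[K1] E} (hτ : τ lam = 1 / (1 - lam)) : τ * τ * τ = 1 := by
  have h1' : 1 - lam ≠ 0 := sub_ne_zero.mpr (Ne.symm h1)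
  have h1'' : lam - 1 ≠ 0 := sub_ne_zero.mpr h1
  apply kd_leg_aut_ext lam j hgen hrel h0 h1
  have s1 : τ (τ lam) = (lam - 1) / lam := by
    rw [hτ, map_div₀, map_one, map_sub, map_one, hτ, kd_leg_id5 lam h0 h1' h1'',
      kd_leg_id6 lam h0 h1' h1'']
  have s2 : τ (τ (τ lam)) = lam := by
    rw [s1, map_div₀, map_sub, map_one, hτ]
    exact kd_leg_id10 lam h0 h1' h1''
  rw [AlgEquiv.mul_apply, AlgEquiv.mul_apply, AlgEquiv.one_apply]
  exact s2

theorem kd_leg_cube_eq_one_D {τ : E ≃ₐ[K1] E} (hτ : τ lam = (lam - 1) / lam) :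
    τ * τ * τ = 1 := by
  have h1' : 1 - lam ≠ 0 := sub_ne_zero.mpr (Ne.symm h1)
  have h1'' : lam - 1 ≠ 0 := sub_ne_zero.mpr h1
  apply kd_leg_aut_ext lam j hgen hrel h0 h1
  have s1 : τ (τ lam) = 1 / (1 - lam) := by
    rw [hτ, map_div₀, map_sub, map_one, hτ]
    exact kd_leg_id8 lam h0 h1' h1''
  have s2 : τ (τ (τ lam)) = lam := by
    rw [s1, map_div₀, map_one, map_sub, map_one, hτ]
    exact kd_leg_id9 lam h0 h1' h1''
  rw [AlgEquiv.mul_apply, AlgEquiv.mul_apply, AlgEquiv.one_apply]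
  exact s2

variable (mu : E ≃ₐ[K1] E) (hmu : mu lam = lam / (lam - 1))
  (p : ℕ) (g : E) (hgp : g ^ p ∈ (algebraMap K1 E).range) (hmug : mu g = g)
  (hroots : ∀ z : E, z ^ p = 1 → z ∈ (algebraMap K1 E).range)

include hmu hgp hmug hroots

/-- the character trick: `σ g = z g` with `z² = z³ = 1` -/
theorem kd_leg_fix_of_orders (hg : g ≠ 0) (σ : E ≃ₐ[K1] E)
    (h : (σ * σ = 1 ∧ (σ * mu) * (σ * mu) * (σ * mu) = 1) ∨
      (σ * σ * σ = 1 ∧ (σ * mu) * (σ * mu) = 1)) : σ g = g := by
  obtain ⟨z, hz⟩ := kd_hes_scalar p hg hgp hroots σ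
  have hb : (σ * mu) g = algebraMap K1 E z * g := by
    rw [AlgEquiv.mul_apply, hmug, hz]
  have key : algebraMap K1 E z ^ 2 = 1 ∧ algebraMap K1 E z ^ 3 = 1 := by
    rcases h with ⟨ha, hb3⟩ | ⟨ha, hb2⟩
    · constructor
      · have h := congrArg (fun f : E ≃ₐ[K1] E => f g) ha
        simp only [AlgEquiv.mul_apply, AlgEquiv.one_apply, hz, map_mul, AlgEquiv.commutes] at h
        apply mul_right_cancel₀ hg
        linear_combination h
      · have h := congrArg (fun f : E ≃ₐ[K1] E => f g) hb3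
        simp only [AlgEquiv.mul_apply, AlgEquiv.one_apply, hmug, hz, map_mul,
          AlgEquiv.commutes] at h
        apply mul_right_cancel₀ hg
        linear_combination h
    · constructor
      · have h := congrArg (fun f : E ≃ₐ[K1] E => f g) hb2
        simp only [AlgEquiv.mul_apply, AlgEquiv.one_apply, hmug, hz, map_mul,
          AlgEquiv.commutes] at h
        apply mul_right_cancel₀ hg
        linear_combination h
      · have h := congrArg (fun f : E ≃ₐ[K1] E => f g) ha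
        simp only [AlgEquiv.mul_apply, AlgEquiv.one_apply, hz, map_mul, AlgEquiv.commutes] at h
        apply mul_right_cancel₀ hg
        linear_combination h
  have e1 : algebraMap K1 E z = 1 := by
    linear_combination key.2 - algebraMap K1 E z * key.1
  rw [hz, e1, one_mul]

/-- Every automorphism fixes `g`. -/
theorem kd_leg_fixed (hg : g ≠ 0) (σ : E ≃ₐ[K1] E) : σ g = g := by
  have h1' : 1 - lam ≠ 0 := sub_ne_zero.mpr (Ne.symm h1)
  have h1'' : lam - 1 ≠ 0 := sub_ne_zero.mpr h1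
  rcases kd_leg_aut_cases lam j hgen hrel h0 h1 σ with hσ | hσ | hσ | hσ | hσ | hσ
  · have : σ = 1 := kd_leg_aut_ext lam j hgen hrel h0 h1 (by rw [hσ, AlgEquiv.one_apply])
    rw [this, AlgEquiv.one_apply]
  · have hb : (σ * mu) lam = (lam - 1) / lam := by
      rw [AlgEquiv.mul_apply, hmu, map_div₀, map_sub, map_one, hσ]
      exact kd_leg_id1 lam h0 h1' h1''
    exact kd_leg_fix_of_orders lam j hgen hrel h0 h1 mu hmu p g hgp hmug hroots hg σ
      (Or.inl ⟨kd_leg_sq_eq_one_A lam j hgen hrel h0 h1 hσ,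
        kd_leg_cube_eq_one_D lam j hgen hrel h0 h1 hb⟩)
  · have hb : (σ * mu) lam = 1 / (1 - lam) := by
      rw [AlgEquiv.mul_apply, hmu, map_div₀, map_sub, map_one, hσ]
      exact kd_leg_id2 lam h0 h1' h1''
    exact kd_leg_fix_of_orders lam j hgen hrel h0 h1 mu hmu p g hgp hmug hroots hg σ
      (Or.inl ⟨kd_leg_sq_eq_one_B lam j hgen hrel h0 h1 hσ,
        kd_leg_cube_eq_one_C lam j hgen hrel h0 h1 hb⟩)
  · have hb : (σ * mu) lam = 1 / lam := by
      rw [AlgEquiv.mul_apply, hmu, map_div₀, map_sub, map_one, hσ]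
      exact kd_leg_id3 lam h0 h1' h1''
    exact kd_leg_fix_of_orders lam j hgen hrel h0 h1 mu hmu p g hgp hmug hroots hg σ
      (Or.inr ⟨kd_leg_cube_eq_one_C lam j hgen hrel h0 h1 hσ,
        kd_leg_sq_eq_one_B lam j hgen hrel h0 h1 hb⟩)
  · have hb : (σ * mu) lam = 1 - lam := by
      rw [AlgEquiv.mul_apply, hmu, map_div₀, map_sub, map_one, hσ]
      exact kd_leg_id4 lam h0 h1' h1''
    exact kd_leg_fix_of_orders lam j hgen hrel h0 h1 mu hmu p g hgp hmug hroots hg σ
      (Or.inr ⟨kd_leg_cube_eq_one_D lam j hgen hrel h0 h1 hσ,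
        kd_leg_sq_eq_one_A lam j hgen hrel h0 h1 hb⟩)
  · have : σ = mu := kd_leg_aut_ext lam j hgen hrel h0 h1 (by rw [hσ, hmu])
    rw [this, hmug]

/-- **Descent along the Legendre cover.** -/
theorem kd_leg_descent : g ∈ (algebraMap K1 E).range := by
  by_cases hg : g = 0
  · exact ⟨0, by rw [hg, map_zero]⟩
  haveI := kd_leg_finiteDimensional lam j hgen hrel h0 h1
  haveI := kd_leg_isGalois lam j hgen hrel h0 h1
  have h : g ∈ (⊥ : IntermediateField K1 E) :=
    (IsGalois.mem_bot_iff_fixed g).2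
      (kd_leg_fixed lam j hgen hrel h0 h1 mu hmu p g hgp hmug hroots hg)
  exact IntermediateField.mem_bot.1 h

end descent

end Fermat.Agent.JT3
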