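/-
JT3 (helper7): node [KD-LEG], concrete half (any coefficient field `L` of characteristic zero).

* `kd_leg_twist_lam`      : `q ↦ -q` sends a Legendre modulus `λ = c q + ⋯` to `λ/(λ-1)`;
* `kd_leg_descent_series` : `F ⊆ L((q))`, `E = φ(F)(λ)`, `φ = (q ↦ q²)`: a `p`-th root `g ∈ E` of
                            `φ(f)`, `f ∈ F`, `p ∣ ord_q f`, lies in `φ(F)`;
* `kd_leg_root_descent`   : the same for `F = lg_F L N`, `E = lg_E L N`, with `p ∣ ord_P f` at all
                            places `P` of `F_N / L` as hypothesis;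
* `kd_KeyF`, `kd_leg_keyF`: `lg_Key0 L O N p ⟹` KEY over `(L, O)` with conclusion in `F_N`;
* `kd_leg_keyAt`          : `lg_Key0 L1 (A ∩ L1) N p ⟹ dsc_KeyAt A N p L1` (the arrow [KD] of the
                            S18 chain, helper12's KeyBridge shape);
* `kd_leg_key`            : `lg_Key0 Q̄ A N p ⟹ jt_Key A N p`.
Prefix `kd_`.
-/
import Mathlib
import Fermat.Agent.JT3.KDescent.Twist
import Fermat.Agent.JT3.KDescent.Legendre
import Fermat.Agent.JT3.Inst.Statements
import Fermat.Agent.S24.PlacesOrbits.PlaceOfEmb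
import Fermat.Agent.JT3.Descent.KeyBridge

set_option autoImplicit false
set_option linter.unusedSectionVars false
set_option linter.style.haveILetI false

noncomputable section

namespace Fermat.Agent.JT3

open ModularCurve HahnSeries Fermat.Agent.S28 IntermediateField

section Series

variable {L : Type*} [Field L] [CharZero L]

theorem kd_two_ne_zero : (2 : LaurentSeries L) ≠ 0 := by
  have h : (2 : LaurentSeries L) = HahnSeries.C (2 : L) := by rw [map_ofNat]
  rw [h]
  intro h0
  have := congrArg (fun y : LaurentSeries L => y.coeff 0) h0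
  simp at this

/-- generators of a subfield `adjoin K S ⊆ M`, seen inside the subfield, generate it -/
theorem kd_adjoin_preimage_eq_top {K M : Type*} [Field K] [Field M] [Algebra K M] (S : Set M) :
    IntermediateField.adjoin K
      ((IntermediateField.adjoin K S).val ⁻¹' S) = ⊤ := by
  apply IntermediateField.map_injective (IntermediateField.adjoin K S).val
  rw [IntermediateField.adjoin_map, ← AlgHom.fieldRange_eq_map, IntermediateField.fieldRange_val]
  congr 1
  ext z
  constructor
  · rintro ⟨w, hw, rfl⟩; exact hw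
  · intro hz
    exact ⟨⟨z, IntermediateField.subset_adjoin K S hz⟩, hz, rfl⟩

/-- `τ = (q ↦ -q)` sends `λ` to `λ / (λ - 1)`. -/
theorem kd_leg_twist_lam {lam j2 : LaurentSeries L}
    (hrel : 256 * (lam ^ 2 - lam + 1) ^ 3 = j2 * lam ^ 2 * (lam - 1) ^ 2)
    (hj2 : fs_twist (-1 : Lˣ) j2 = j2) (h1 : lam.coeff 1 ≠ 0) (h0 : ∀ n < 1, lam.coeff n = 0) :
    fs_twist (-1 : Lˣ) lam = lam / (lam - 1) := by
  set y := fs_twist (-1 : Lˣ) lam with hy
  have hy1 : y.coeff 1 = - lam.coeff 1 := by
    rw [hy, fs_twist_coeff]; simp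
  have hy0 : ∀ n < 1, y.coeff n = 0 := by
    intro n hn; rw [hy, fs_twist_coeff, h0 n hn, mul_zero]
  have hlam0 : lam ≠ 0 := fun h => h1 (by rw [h, HahnSeries.coeff_zero])
  have hlam1 : lam ≠ 1 := by
    intro h
    have := h0 0 (by norm_num)
    rw [h, HahnSeries.coeff_one, if_pos rfl] at this
    exact one_ne_zero this
  have hy_ne0 : y ≠ 0 := fun h => h1 (by
    have := hy1; rw [h, HahnSeries.coeff_zero] at this
    exact neg_eq_zero.mp this.symm)
  have hordlam : lam.order = 1 := fs_order_eq_of h1 h0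
  have hordy : y.order = 1 := by rw [hy, fs_twist_order, hordlam]
  have hc0 : (1 - lam).coeff 0 = 1 := by
    rw [HahnSeries.coeff_sub, HahnSeries.coeff_one, if_pos rfl, h0 0 (by norm_num), sub_zero]
  have hord1 : (1 - lam).order = 0 := by
    refine fs_order_eq_of (by rw [hc0]; exact one_ne_zero) fun n hn => ?_
    rw [HahnSeries.coeff_sub, HahnSeries.coeff_one, if_neg (by omega), h0 n (by omega), sub_zero]
  have h1lam : (1 - lam) ≠ 0 := sub_ne_zero.mpr (Ne.symm hlam1)
  have hord1' : (lam - 1).order = 0 := by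
    have : lam - 1 = -(1 - lam) := by ring
    rw [this, HahnSeries.order_neg, hord1]
  have hrely : 256 * (y ^ 2 - y + 1) ^ 3 = j2 * y ^ 2 * (y - 1) ^ 2 := by
    have := congrArg (fs_twist (-1 : Lˣ)) hrel
    simp only [map_mul, map_pow, map_sub, map_add, map_one, map_ofNat, hj2] at this
    exact this
  have hcross : 256 * (y ^ 2 - y + 1) ^ 3 * (lam ^ 2 * (lam - 1) ^ 2)
      = 256 * (lam ^ 2 - lam + 1) ^ 3 * (y ^ 2 * (y - 1) ^ 2) := by
    rw [hrely, hrel]; ring
  rcases kd_leg_root_cases kd_two_ne_zero hlam0 hlam1 hcross with h | h | h | h | h | h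
  · exfalso
    have := congrArg (fun z : LaurentSeries L => z.coeff 1) h
    simp only [hy1] at this
    have h2 : (2 : L) * lam.coeff 1 = 0 := by linear_combination -this
    rcases mul_eq_zero.mp h2 with h3 | h3
    · exact two_ne_zero h3
    · exact h1 h3
  · exfalso
    have := congrArg (fun z : LaurentSeries L => z.coeff 0) h
    simp only [hc0, hy0 0 (by norm_num)] at this
    exact zero_ne_one this
  · exfalso
    have h2 : y * lam = 1 := by rw [h]; field_simp
    have := congrArg HahnSeries.order h2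
    rw [HahnSeries.order_mul hy_ne0 hlam0, hordy, hordlam, HahnSeries.order_one] at this
    norm_num at this
  · exfalso
    have h2 : y * (1 - lam) = 1 := by rw [h]; field_simp
    have := congrArg HahnSeries.order h2
    rw [HahnSeries.order_mul hy_ne0 h1lam, hordy, hord1, HahnSeries.order_one] at this
    norm_num at this
  · exfalso
    have h2 : y * lam = lam - 1 := by rw [h]; field_simp
    have := congrArg HahnSeries.order h2
    rw [HahnSeries.order_mul hy_ne0 hlam0, hordy, hordlam, hord1'] at this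
    norm_num at this
  · exact h

theorem kd_neg_one_sq : ((-1 : Lˣ)) ^ 2 = 1 := by
  rw [neg_one_sq]

/-- **Legendre descent for Laurent series.** `F ⊆ L((q))` a subfield containing `j`, `λ` a
Legendre modulus for `j(q²)` with `λ = c q + ⋯`, `E = φ(F)(λ)`, `φ = (q ↦ q²)`: if `g ∈ E` is a
`p`-th root of `φ(f)`, `f ∈ F`, and `p ∣ ord_q f`, then `g ∈ φ(F)`. -/
theorem kd_leg_descent_series (F : IntermediateField L (LaurentSeries L))
    {j lam g f : LaurentSeries L} (hj : j ∈ F)
    (hrel : 256 * (lam ^ 2 - lam + 1) ^ 3 = qExpand L 2 j * lam ^ 2 * (lam - 1) ^ 2)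
    (h1 : lam.coeff 1 ≠ 0) (h0 : ∀ n < 1, lam.coeff n = 0)
    {p : ℕ} (hp : p ≠ 0)
    (hg : g ∈ F.map (qExpandAlgHomC L 2) ⊔ IntermediateField.adjoin L {lam})
    (hf : f ∈ F) (hgp : g ^ p = qExpand L 2 f) (hord : (p : ℤ) ∣ f.order) :
    ∃ g0 ∈ F, g = qExpand L 2 g0 := by
  set F2 : IntermediateField L (LaurentSeries L) := F.map (qExpandAlgHomC L 2) with hF2
  have hmemF2 : ∀ x ∈ F, qExpand L 2 x ∈ F2 := fun x hx => ⟨x, hx, rfl⟩
  have hfix : ∀ x ∈ F2, fs_twist (-1 : Lˣ) x = x := by
    rintro _ ⟨x0, _, rfl⟩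
    exact kd_twist_qExpand (n := 2) kd_neg_one_sq x0
  set τ := kd_twistOver (-1 : Lˣ) F2 hfix with hτ
  set Et : IntermediateField ↥F2 (LaurentSeries L) :=
    IntermediateField.adjoin ↥F2 {lam} with hEt
  have hlamEt : lam ∈ Et := IntermediateField.mem_adjoin_simple_self _ _
  set lamE : ↥Et := ⟨lam, hlamEt⟩ with hlamE
  set jE : ↥F2 := ⟨qExpand L 2 j, hmemF2 j hj⟩ with hjE
  have hgen : IntermediateField.adjoin ↥F2 {lamE} = ⊤ := by
    have h := kd_adjoin_preimage_eq_top (K := ↥F2) ({lam} : Set (LaurentSeries L))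
    have hset : (IntermediateField.adjoin ↥F2 ({lam} : Set (LaurentSeries L))).val ⁻¹' {lam}
        = {lamE} := by
      ext z
      simp only [Set.mem_preimage, Set.mem_singleton_iff]
      constructor
      · intro hz; exact Subtype.ext hz
      · intro hz; rw [hz]; rfl
    rw [hset] at h
    exact h
  have hrelE : 256 * (lamE ^ 2 - lamE + 1) ^ 3
      = algebraMap ↥F2 ↥Et jE * lamE ^ 2 * (lamE - 1) ^ 2 := by
    apply Subtype.ext
    exact hrel
  have hlam0 : lam ≠ 0 := fun h => h1 (by rw [h, HahnSeries.coeff_zero])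
  have hlam1 : lam ≠ 1 := by
    intro h
    have := h0 0 (by norm_num)
    rw [h, HahnSeries.coeff_one, if_pos rfl] at this
    exact one_ne_zero this
  have h0E : lamE ≠ 0 := fun h => hlam0 (congrArg Subtype.val h)
  have h1E : lamE ≠ 1 := fun h => hlam1 (congrArg Subtype.val h)
  haveI : CharZero ↥F2 := charZero_of_injective_algebraMap (algebraMap L ↥F2).injective
  haveI : Normal ↥F2 ↥Et := kd_leg_normal lamE jE hgen hrelE h0E h1E
  set mu : ↥Et ≃ₐ[↥F2] ↥Et := τ.restrictNormal ↥Et with hmu_def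
  have hmu_val : ∀ x : ↥Et, ((mu x : ↥Et) : LaurentSeries L) = fs_twist (-1 : Lˣ) x := by
    intro x
    exact AlgEquiv.restrictNormal_commutes τ ↥Et x
  have hmu : mu lamE = lamE / (lamE - 1) := by
    apply Subtype.ext
    rw [hmu_val]
    have := kd_leg_twist_lam hrel (kd_twist_qExpand (n := 2) kd_neg_one_sq j) h1 h0
    simpa using this
  -- `g ∈ Et`
  have hle : F2 ⊔ IntermediateField.adjoin L {lam} ≤ Et.restrictScalars L := by
    refine sup_le ?_ ?_
    · intro x hx
      exact Et.algebraMap_mem ⟨x, hx⟩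
    · rw [IntermediateField.adjoin_le_iff]
      intro x hx
      rw [Set.mem_singleton_iff.1 hx]
      exact hlamEt
  have hgEt : g ∈ Et := hle hg
  set gE : ↥Et := ⟨g, hgEt⟩ with hgE
  have hgpE : gE ^ p ∈ (algebraMap ↥F2 ↥Et).range := by
    refine ⟨⟨qExpand L 2 f, hmemF2 f hf⟩, ?_⟩
    apply Subtype.ext
    exact hgp.symm
  have hmug : mu gE = gE := by
    apply Subtype.ext
    rw [hmu_val]
    exact kd_twist_fix (n := 2) kd_neg_one_sq hp hgp hord
  have hroots : ∀ z : ↥Et, z ^ p = 1 → z ∈ (algebraMap ↥F2 ↥Et).range := by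
    intro z hz
    have hz' : (z : LaurentSeries L) ^ p = 1 := congrArg Subtype.val hz
    obtain ⟨c, hc⟩ := kd_const_of_pow_eq_one hp hz'
    refine ⟨algebraMap L ↥F2 c, ?_⟩
    apply Subtype.ext
    rw [hc, HahnSeries.C_apply, ← algebraMap_laurentSeries_eq_single]
    rfl
  obtain ⟨y, hy⟩ := kd_leg_descent lamE jE hgen hrelE h0E h1E mu hmu p gE hgpE hmug hroots
  obtain ⟨g0, hg0, hg0y⟩ := y.2
  refine ⟨g0, hg0, ?_⟩
  have : (y : LaurentSeries L) = g := congrArg Subtype.val hy
  rw [← this, ← hg0y]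
  rfl

end Series

section Places

open AlgebraicCurve Fermat.Agent.S24

/-- divisibility of the order at every place gives divisibility of the `q`-order along any
non-constant embedding into Laurent series -/
theorem kd_dvd_order_of_places {K F : Type*} [Field K] [Field F] [Algebra K F]
    (φ : F →ₐ[K] LaurentSeries K) (hφ : ∃ f : F, 0 < (φ f).order) (m : ℤ) (f : F)
    (h : ∀ P : Place K F, m ∣ P.ord f) : m ∣ (φ f).order := by
  have hφ' : ∃ f : F, 0 < po_ord φ f := hφ
  obtain ⟨ϖ, hϖ⟩ := IsDiscreteValuationRing.exists_irreducible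
    (po_place φ hφ').toValuationSubring
  have := po_ord_eq_mul_ord φ hφ' hϖ f
  rw [po_ord_def] at this
  rw [this]
  exact Dvd.dvd.mul_left (h _) _

theorem kd_order_jq (k : Type*) [Field k] : (jqModC k).order = -1 := by
  apply le_antisymm
  · exact HahnSeries.order_le_of_coeff_ne_zero (by rw [coeff_jqModC_neg_one]; exact one_ne_zero)
  · by_contra h
    push Not at h
    have := coeff_jqModC_of_lt k h
    exact (jqModC_ne_zero_of_nontrivial k) (HahnSeries.coeff_order_eq_zero.mp this)

end Places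

section Key

open AlgebraicCurve

set_option synthInstance.maxHeartbeats 400000 in
/-- the Legendre descent, for the level-`N` field over an arbitrary coefficient field of
characteristic zero: from a `p`-th root in `E = φ(F_N)(λ)` to a `p`-th root in `F_N`. -/
theorem kd_leg_root_descent (L : Type*) [Field L] [CharZero L] (N : ℕ) [NeZero N] {p : ℕ}
    (hp : p ≠ 0) (f : lg_F L N) (hord : ∀ P : Place L (lg_F L N), (p : ℤ) ∣ P.ord f)
    (c : L) (g : LaurentSeries L) (hg : g ∈ lg_E L N)
    (hfg : lg_phi L (f : LaurentSeries L) = algebraMap L (LaurentSeries L) c * g ^ p) :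
    ∃ (c' : L) (g' : lg_F L N), f = algebraMap L (lg_F L N) c' * g' ^ p := by
  have hinj : Function.Injective (lg_phi L) := (lg_phi L).toRingHom.injective
  by_cases hc : c = 0
  · refine ⟨0, 0, ?_⟩
    rw [hc, map_zero, zero_mul] at hfg
    have h0 : (f : LaurentSeries L) = 0 := hinj (by rw [hfg, map_zero])
    rw [map_zero, zero_mul]
    exact Subtype.ext h0
  -- the `q`-order of `f` is divisible by `p`
  have hφ : ∃ x : lg_F L N, 0 < ((lg_F L N).val x).order := by
    refine ⟨⟨(jqModC L)⁻¹, inv_mem (jqModC_mem_full L N)⟩, ?_⟩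
    show 0 < ((jqModC L)⁻¹).order
    have hj0 : jqModC L ≠ 0 := jqModC_ne_zero_of_nontrivial L
    have := congrArg HahnSeries.order (mul_inv_cancel₀ hj0)
    rw [HahnSeries.order_mul hj0 (inv_ne_zero hj0), kd_order_jq, HahnSeries.order_one] at this
    omega
  have hordq : (p : ℤ) ∣ (f : LaurentSeries L).order :=
    kd_dvd_order_of_places (lg_F L N).val hφ (p : ℤ) f hord
  -- normalise the constant
  set f1 : LaurentSeries L := algebraMap L (LaurentSeries L) c⁻¹ * (f : LaurentSeries L)
    with hf1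
  have hf1F : f1 ∈ lg_F L N := mul_mem ((lg_F L N).algebraMap_mem _) f.2
  have hcinv : algebraMap L (LaurentSeries L) c⁻¹ * algebraMap L (LaurentSeries L) c = 1 := by
    rw [← map_mul, inv_mul_cancel₀ hc, map_one]
  have hgp : g ^ p = qExpand L 2 f1 := by
    rw [← lg_phi_apply, hf1, map_mul, hfg, AlgHom.commutes, ← mul_assoc, hcinv, one_mul]
  have hord1 : (p : ℤ) ∣ f1.order := by
    by_cases hf0 : (f : LaurentSeries L) = 0
    · rw [hf1, hf0, mul_zero, HahnSeries.order_zero]; exact dvd_zero _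
    · have hc' : algebraMap L (LaurentSeries L) c⁻¹ ≠ 0 :=
        (map_ne_zero_iff _ (algebraMap L (LaurentSeries L)).injective).2 (inv_ne_zero hc)
      rw [hf1, HahnSeries.order_mul hc' hf0, algebraMap_laurentSeries_eq_single,
        HahnSeries.order_single (inv_ne_zero hc), zero_add]
      exact hordq
  have h16 : (hm_lam L).coeff 1 ≠ 0 := by
    rw [hm_lam_coeff_one]; norm_num
  obtain ⟨g0, hg0F, hg0⟩ := kd_leg_descent_series (lg_F L N) (jqModC_mem_full L N)
    (lg_legendre L) h16 (fun n hn => hm_lam_coeff_of_lt L hn) hp hg hf1F hgp hord1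
  refine ⟨c, ⟨g0, hg0F⟩, ?_⟩
  apply Subtype.ext
  apply hinj
  show lg_phi L (f : LaurentSeries L) = lg_phi L (algebraMap L (LaurentSeries L) c * g0 ^ p)
  rw [hfg, map_mul, map_pow, AlgHom.commutes, lg_phi_apply L g0, ← hg0]

/-- **KEY over `(L, O)` with conclusion in `F_N`**: the statement `lg_Key0 L O N p` with the
`p`-th root descended from `E = φ(F_N)(λ)` to `F_N`. -/
def kd_KeyF (L : Type*) [Field L] (O : ValuationSubring L) (N : ℕ) [NeZero N] (p : ℕ)
    (F : IntermediateField L (LaurentSeries L)) : Prop :=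
  ∀ (y1 y2 : LaurentSeries O)
    (h1 : coeffMap O.subtype y1 ∈ F) (h2 : coeffMap O.subtype y2 ∈ F),
    coeffMap (IsLocalRing.residue O) y1 = coeffMap (IsLocalRing.residue O) y2 →
    coeffMap (IsLocalRing.residue O) y2 ≠ 0 →
    ∀ f : F,
      f * (⟨coeffMap O.subtype y2, h2⟩ : F) = (⟨coeffMap O.subtype y1, h1⟩ : F) →
      (∀ P : Place L F, (p : ℤ) ∣ P.ord f) →
      ∃ (c : L) (g : F), f = algebraMap L F c * g ^ p

/-- **[KD-LEG], generic coefficient field**: `lg_Key0 L O N p ⟹` KEY over `(L, O)` in `F_N`. -/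
theorem kd_leg_keyF (L : Type*) [Field L] [CharZero L] (O : ValuationSubring L) (N : ℕ)
    [NeZero N] {p : ℕ} (hp : p ≠ 0) (h : lg_Key0 L O N p) : kd_KeyF L O N p (lg_F L N) := by
  intro y1 y2 h1 h2 hred hred0 f hf hord
  obtain ⟨c, g, hg, hfg⟩ := h y1 y2 h1 h2 hred hred0 f hf hord
  exact kd_leg_root_descent L N hp f hord c g hg hfg

/-- **[KD-LEG], the arrow of the S18 chain** (helper12's `dsc_KeyAt` shape):
`lg_Key0 L1 (A ∩ L1) N p ⟹ dsc_KeyAt A N p L1`. -/
theorem kd_leg_keyAt (A : ValuationSubring (AlgebraicClosure ℚ)) (N : ℕ) [NeZero N] {p : ℕ}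
    (hp : p ≠ 0) (L1 : Type) [Field L1] [Algebra ℚ L1] [Algebra L1 (AlgebraicClosure ℚ)]
    (h : lg_Key0 L1 (A.comap (algebraMap L1 (AlgebraicClosure ℚ))) N p) :
    dsc_KeyAt A N p L1 := by
  haveI : CharZero L1 := algebraRat.charZero L1
  have key : ∀ F : IntermediateField L1 (LaurentSeries L1), lg_F L1 N = F →
      kd_KeyF L1 (A.comap (algebraMap L1 (AlgebraicClosure ℚ))) N p F := by
    rintro F rfl
    exact kd_leg_keyF L1 _ N hp h
  exact key _ (lg_F_eq_laurentBaseChange L1 N)

/-- the same over `Q̄` itself: `lg_Key0 Q̄ A N p ⟹ jt_Key A N p`. -/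
theorem kd_leg_key (A : ValuationSubring (AlgebraicClosure ℚ)) (N : ℕ) [NeZero N] {p : ℕ}
    (hp : p ≠ 0) (h : lg_Key0 (AlgebraicClosure ℚ) A N p) : jt_Key A N p := by
  have key : ∀ F : IntermediateField (AlgebraicClosure ℚ) (LaurentSeries (AlgebraicClosure ℚ)),
      lg_F (AlgebraicClosure ℚ) N = F → kd_KeyF (AlgebraicClosure ℚ) A N p F := by
    rintro F rfl
    exact kd_leg_keyF (AlgebraicClosure ℚ) A N hp h
  exact key _ (lg_F_eq_bar N)

/-- number field form: `jt_Key` follows from `lg_Key0` over every number field `L1 ⊆ Q̄`. -/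
theorem kd_leg_key_of_numberField (A : ValuationSubring (AlgebraicClosure ℚ)) (N : ℕ) [NeZero N]
    {p : ℕ} (hp : p ≠ 0)
    (hK : ∀ L1 : IntermediateField ℚ (AlgebraicClosure ℚ), FiniteDimensional ℚ L1 →
      lg_Key0 ↥L1 (A.comap (algebraMap ↥L1 (AlgebraicClosure ℚ))) N p) :
    jt_Key A N p :=
  dsc_key_of_numberField (fun L1 h => kd_leg_keyAt A N hp ↥L1 (hK L1 h))

/-- number field form with prescribed elements: `jt_Key` follows from `lg_Key0` over every number
field `L1 ⊆ Q̄` containing a given finite set `T` (e.g. `T = {ζ_N}`). -/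
theorem kd_leg_key_of_numberField_of_subset (A : ValuationSubring (AlgebraicClosure ℚ)) (N : ℕ)
    [NeZero N] {p : ℕ} (hp : p ≠ 0) (T : Finset (AlgebraicClosure ℚ))
    (hK : ∀ L1 : IntermediateField ℚ (AlgebraicClosure ℚ), FiniteDimensional ℚ L1 →
      (↑T : Set (AlgebraicClosure ℚ)) ⊆ L1 →
      lg_Key0 ↥L1 (A.comap (algebraMap ↥L1 (AlgebraicClosure ℚ))) N p) :
    jt_Key A N p := by
  classical
  have _ : Algebra.IsAlgebraic ℚ (AlgebraicClosure ℚ) := AlgebraicClosure.isAlgebraic ℚ
  apply dsc_key_of_keyAt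
  intro s
  set L1 : IntermediateField ℚ (AlgebraicClosure ℚ) :=
    IntermediateField.adjoin ℚ ((↑(s ∪ T) : Set (AlgebraicClosure ℚ))) with hL1
  have hfd : FiniteDimensional ℚ L1 :=
    IntermediateField.finiteDimensional_adjoin (fun x _ => Algebra.IsIntegral.isIntegral x)
  have hsub : (↑(s ∪ T) : Set (AlgebraicClosure ℚ)) ⊆ L1 := IntermediateField.subset_adjoin ℚ _
  refine ⟨L1, fun x hx => hsub (by simp [Finset.mem_coe.1 hx]), ?_⟩
  exact kd_leg_keyAt A N hp ↥L1 (hK L1 hfd (fun x hx => hsub (by simp [Finset.mem_coe.1 hx])))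

end Key

end Fermat.Agent.JT3

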