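/-
JT3 (helper7): node [KD-HES], concrete half (any coefficient field `L` of characteristic zero
containing a primitive cube root of unity): the Hesse twin of `KDescent/LegendreKey.lean`.

* `kd_hsk_descent_series` : `F ⊆ L((q))`, `E = φ(F)(μ)`, `φ = (q ↦ q³)`: a `p`-th root `g ∈ E` of
                            `φ(f)`, `f ∈ F`, `p ∣ ord_q f`, lies in `φ(F)`;
* `kd_hsk_root_descent`   : the same for `F = lg_F L N`, `E = hs_E L h3 N`;
* `kd_hsk_keyF`           : `hs_Key0 L h3 O N p ⟹` KEY over `(L, O)` with conclusion in `F_N`;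
* `kd_hsk_keyAt`          : `hs_Key0 L1 h3 (A ∩ L1) N p ⟹ dsc_KeyAt A N p L1` (`ζ₃ ∈ L1`);
* `kd_hsk_key`            : `hs_Key0 Q̄ _ A N p ⟹ jt_Key A N p`.
Prefix `kd_hsk_`.
-/
import Mathlib
import Fermat.Agent.JT3.KDescent.LegendreKey
import Fermat.Agent.JT3.KDescent.Hesse
import Fermat.Agent.JT3.Inst.HesseStatements

set_option autoImplicit false
set_option linter.unusedSectionVars false
set_option linter.style.haveILetI false

noncomputable section

namespace Fermat.Agent.JT3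

open ModularCurve HahnSeries Fermat.Agent.S28 IntermediateField

section Series

variable {L : Type*} [Field L] [CharZero L]

/-- **Hesse descent for Laurent series.** `F ⊆ L((q))` a subfield containing `j`, `μ` a Hesse
modulus for `j(q³)` on which `q ↦ e q` acts by `e⁻¹` (`e` a primitive cube root of unity of `L`),
`E = φ(F)(μ)`, `φ = (q ↦ q³)`: if `g ∈ E` is a `p`-th root of `φ(f)`, `f ∈ F`, and `p ∣ ord_q f`,
then `g ∈ φ(F)`. -/
theorem kd_hsk_descent_series (F : IntermediateField L (LaurentSeries L))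
    {j mu g f : LaurentSeries L} (hj : j ∈ F)
    (hrel : cv_hesN mu = qExpand L 3 j * cv_hesD mu) (h1 : mu ^ 3 ≠ 1)
    (e : Lˣ) (he : IsPrimitiveRoot e 3)
    (htw : fs_twist e mu = HahnSeries.C ((e⁻¹ : Lˣ) : L) * mu)
    {p : ℕ} (hp : p ≠ 0)
    (hg : g ∈ F.map (qExpandAlgHomC L 3) ⊔ IntermediateField.adjoin L {mu})
    (hf : f ∈ F) (hgp : g ^ p = qExpand L 3 f) (hord : (p : ℤ) ∣ f.order) :
    ∃ g0 ∈ F, g = qExpand L 3 g0 := by
  have he3 : e ^ 3 = 1 := he.pow_eq_one
  set F3 : IntermediateField L (LaurentSeries L) := F.map (qExpandAlgHomC L 3) with hF3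
  have hmemF3 : ∀ x ∈ F, qExpand L 3 x ∈ F3 := fun x hx => ⟨x, hx, rfl⟩
  have hfix : ∀ x ∈ F3, fs_twist e x = x := by
    rintro _ ⟨x0, _, rfl⟩
    exact kd_twist_qExpand (n := 3) he3 x0
  set τ := kd_twistOver e F3 hfix with hτ
  set Et : IntermediateField ↥F3 (LaurentSeries L) :=
    IntermediateField.adjoin ↥F3 {mu} with hEt
  have hmuEt : mu ∈ Et := IntermediateField.mem_adjoin_simple_self _ _
  set muE : ↥Et := ⟨mu, hmuEt⟩ with hmuE
  set jE : ↥F3 := ⟨qExpand L 3 j, hmemF3 j hj⟩ with hjE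
  set w : ↥F3 := algebraMap L ↥F3 ((e⁻¹ : Lˣ) : L) with hw_def
  have hw : IsPrimitiveRoot w 3 := by
    have h0 : IsPrimitiveRoot ((e⁻¹ : Lˣ) : L) 3 := (he.inv).map_of_injective
      (f := Units.coeHom L) Units.val_injective
    exact h0.map_of_injective (algebraMap L ↥F3).injective
  have hgen : IntermediateField.adjoin ↥F3 {muE} = ⊤ := by
    have h := kd_adjoin_preimage_eq_top (K := ↥F3) ({mu} : Set (LaurentSeries L))
    have hset : (IntermediateField.adjoin ↥F3 ({mu} : Set (LaurentSeries L))).val ⁻¹' {mu}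
        = {muE} := by
      ext z
      simp only [Set.mem_preimage, Set.mem_singleton_iff]
      constructor
      · intro hz; exact Subtype.ext hz
      · intro hz; rw [hz]; rfl
    rw [hset] at h
    exact h
  have hrelE : cv_hesN muE = algebraMap ↥F3 ↥Et jE * cv_hesD muE := by
    apply Subtype.ext
    have : ((cv_hesN muE : ↥Et) : LaurentSeries L) = cv_hesN mu := by
      unfold cv_hesN; push_cast; rfl
    rw [this]
    have h2 : ((algebraMap ↥F3 ↥Et jE * cv_hesD muE : ↥Et) : LaurentSeries L)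
        = qExpand L 3 j * cv_hesD mu := by
      unfold cv_hesD; push_cast; rfl
    rw [h2]
    exact hrel
  have h1E : muE ^ 3 ≠ 1 := fun h => h1 (congrArg Subtype.val h)
  haveI : CharZero ↥F3 := charZero_of_injective_algebraMap (algebraMap L ↥F3).injective
  have hgal : IsGalois ↥F3 ↥Et := kd_hes_isGalois muE jE w hgen hw hrelE h1E
  haveI : Normal ↥F3 ↥Et := hgal.to_normal
  set nu : ↥Et ≃ₐ[↥F3] ↥Et := τ.restrictNormal ↥Et with hnu_def
  have hnu_val : ∀ x : ↥Et, ((nu x : ↥Et) : LaurentSeries L) = fs_twist e x := by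
    intro x
    exact AlgEquiv.restrictNormal_commutes τ ↥Et x
  have hnu : nu muE = algebraMap ↥F3 ↥Et w * muE := by
    apply Subtype.ext
    rw [hnu_val]
    show fs_twist e mu = algebraMap L (LaurentSeries L) ((e⁻¹ : Lˣ) : L) * mu
    rw [htw, HahnSeries.C_apply, algebraMap_laurentSeries_eq_single]
  -- `g ∈ Et`
  have hle : F3 ⊔ IntermediateField.adjoin L {mu} ≤ Et.restrictScalars L := by
    refine sup_le ?_ ?_
    · intro x hx
      exact Et.algebraMap_mem ⟨x, hx⟩
    · rw [IntermediateField.adjoin_le_iff]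
      intro x hx
      rw [Set.mem_singleton_iff.1 hx]
      exact hmuEt
  have hgEt : g ∈ Et := hle hg
  set gE : ↥Et := ⟨g, hgEt⟩ with hgE
  have hgpE : gE ^ p ∈ (algebraMap ↥F3 ↥Et).range := by
    refine ⟨⟨qExpand L 3 f, hmemF3 f hf⟩, ?_⟩
    apply Subtype.ext
    exact hgp.symm
  have hnug : nu gE = gE := by
    apply Subtype.ext
    rw [hnu_val]
    exact kd_twist_fix (n := 3) he3 hp hgp hord
  have hroots : ∀ z : ↥Et, z ^ p = 1 → z ∈ (algebraMap ↥F3 ↥Et).range := by
    intro z hz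
    have hz' : (z : LaurentSeries L) ^ p = 1 := congrArg Subtype.val hz
    obtain ⟨c, hc⟩ := kd_const_of_pow_eq_one hp hz'
    refine ⟨algebraMap L ↥F3 c, ?_⟩
    apply Subtype.ext
    rw [hc, HahnSeries.C_apply, ← algebraMap_laurentSeries_eq_single]
    rfl
  obtain ⟨y, hy⟩ := kd_hes_descent muE jE w hgen hw hrelE h1E nu hnu p gE hgpE hnug hroots
  obtain ⟨g0, hg0, hg0y⟩ := y.2
  refine ⟨g0, hg0, ?_⟩
  have : (y : LaurentSeries L) = g := congrArg Subtype.val hy
  rw [← this, ← hg0y]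
  rfl

end Series

section Key

open AlgebraicCurve

set_option synthInstance.maxHeartbeats 400000 in
/-- the Hesse descent, for the level-`N` field over an arbitrary coefficient field of
characteristic zero containing a primitive cube root of unity: from a `p`-th root in
`E = φ(F_N)(μ)` to a `p`-th root in `F_N`. -/
theorem kd_hsk_root_descent (L : Type*) [Field L] [CharZero L] (h3 : (3 : L) ≠ 0) (N : ℕ)
    [NeZero N] {ζ : L} (hζ : IsPrimitiveRoot ζ 3) {p : ℕ}
    (hp : p ≠ 0) (f : lg_F L N) (hord : ∀ P : Place L (lg_F L N), (p : ℤ) ∣ P.ord f)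
    (c : L) (g : LaurentSeries L) (hg : g ∈ hs_E L h3 N)
    (hfg : hs_phi L (f : LaurentSeries L) = algebraMap L (LaurentSeries L) c * g ^ p) :
    ∃ (c' : L) (g' : lg_F L N), f = algebraMap L (lg_F L N) c' * g' ^ p := by
  have hinj : Function.Injective (hs_phi L) := (hs_phi L).toRingHom.injective
  by_cases hc : c = 0
  · refine ⟨0, 0, ?_⟩
    rw [hc, map_zero, zero_mul] at hfg
    have h0 : (f : LaurentSeries L) = 0 := hinj (by rw [hfg, map_zero])
    rw [map_zero, zero_mul]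
    exact Subtype.ext h0
  -- the `q`-order of `f` is divisible by `p`
  have hφ : ∃ x : lg_F L N, 0 < ((lg_F L N).val x).order := by
    refine ⟨⟨(jqModC L)⁻¹, inv_mem (jqModC_mem_full L N)⟩, ?_⟩
    show 0 < ((jqModC L)⁻¹).order
    have hj0 : jqModC L ≠ 0 := jqModC_ne_zero_of_nontrivial L
    have := congrArg HahnSeries.order (mul_inv_cancel₀ hj0)
    rw [HahnSeries.order_mul hj0 (inv_ne_zero hj0), kd_order_jq, HahnSeries.order_one] at this
    omega
  have hordq : (p : ℤ) ∣ (f : LaurentSeries L).order :=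
    kd_dvd_order_of_places (lg_F L N).val hφ (p : ℤ) f hord
  -- normalise the constant
  set f1 : LaurentSeries L := algebraMap L (LaurentSeries L) c⁻¹ * (f : LaurentSeries L)
    with hf1
  have hf1F : f1 ∈ lg_F L N := mul_mem ((lg_F L N).algebraMap_mem _) f.2
  have hcinv : algebraMap L (LaurentSeries L) c⁻¹ * algebraMap L (LaurentSeries L) c = 1 := by
    rw [← map_mul, inv_mul_cancel₀ hc, map_one]
  have hgp : g ^ p = qExpand L 3 f1 := by
    rw [← hs_phi_apply, hf1, map_mul, hfg, AlgHom.commutes, ← mul_assoc, hcinv, one_mul]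
  have hord1 : (p : ℤ) ∣ f1.order := by
    by_cases hf0 : (f : LaurentSeries L) = 0
    · rw [hf1, hf0, mul_zero, HahnSeries.order_zero]; exact dvd_zero _
    · have hc' : algebraMap L (LaurentSeries L) c⁻¹ ≠ 0 :=
        (map_ne_zero_iff _ (algebraMap L (LaurentSeries L)).injective).2 (inv_ne_zero hc)
      rw [hf1, HahnSeries.order_mul hc' hf0, algebraMap_laurentSeries_eq_single,
        HahnSeries.order_single (inv_ne_zero hc), zero_add]
      exact hordq
  -- the cube root of unity as a unit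
  have hζ0 : ζ ≠ 0 := hζ.ne_zero (by norm_num)
  set e : Lˣ := Units.mk0 ζ hζ0 with he_def
  have he : IsPrimitiveRoot e 3 := by
    have : IsPrimitiveRoot ((e : Lˣ) : L) 3 := hζ
    exact IsPrimitiveRoot.coe_units_iff.mp this
  obtain ⟨g0, hg0F, hg0⟩ := kd_hsk_descent_series (lg_F L N) (jqModC_mem_full L N)
    (hs_hesse L h3) (hs_mu_cube_ne_one L h3) e he (hs_twist_mu L h3 e he.pow_eq_one) hp hg hf1F
    hgp hord1
  refine ⟨c, ⟨g0, hg0F⟩, ?_⟩
  apply Subtype.ext
  apply hinj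
  show hs_phi L (f : LaurentSeries L) = hs_phi L (algebraMap L (LaurentSeries L) c * g0 ^ p)
  rw [hfg, map_mul, map_pow, AlgHom.commutes, hs_phi_apply L g0, ← hg0]

/-- **[KD-HES], generic coefficient field**: `hs_Key0 L h3 O N p ⟹` KEY over `(L, O)` in `F_N`
(`ζ₃ ∈ L`). -/
theorem kd_hsk_keyF (L : Type*) [Field L] [CharZero L] (h3 : (3 : L) ≠ 0)
    (O : ValuationSubring L) (N : ℕ) [NeZero N] {ζ : L} (hζ : IsPrimitiveRoot ζ 3) {p : ℕ}
    (hp : p ≠ 0) (h : hs_Key0 L h3 O N p) : kd_KeyF L O N p (lg_F L N) := by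
  intro y1 y2 h1 h2 hred hred0 f hf hord
  obtain ⟨c, g, hg, hfg⟩ := h y1 y2 h1 h2 hred hred0 f hf hord
  exact kd_hsk_root_descent L h3 N hζ hp f hord c g hg hfg

/-- **[KD-HES], the arrow of the S18 chain** (helper12's `dsc_KeyAt` shape), over a coefficient
field `L1 ∋ ζ₃`: `hs_Key0 L1 h3 (A ∩ L1) N p ⟹ dsc_KeyAt A N p L1`. -/
theorem kd_hsk_keyAt (A : ValuationSubring (AlgebraicClosure ℚ)) (N : ℕ) [NeZero N] {p : ℕ}
    (hp : p ≠ 0) (L1 : Type) [Field L1] [Algebra ℚ L1] [Algebra L1 (AlgebraicClosure ℚ)]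
    (h3 : (3 : L1) ≠ 0) {ζ : L1} (hζ : IsPrimitiveRoot ζ 3)
    (h : hs_Key0 L1 h3 (A.comap (algebraMap L1 (AlgebraicClosure ℚ))) N p) :
    dsc_KeyAt A N p L1 := by
  haveI : CharZero L1 := algebraRat.charZero L1
  have key : ∀ F : IntermediateField L1 (LaurentSeries L1), lg_F L1 N = F →
      kd_KeyF L1 (A.comap (algebraMap L1 (AlgebraicClosure ℚ))) N p F := by
    rintro F rfl
    exact kd_hsk_keyF L1 h3 _ N hζ hp h
  exact key _ (lg_F_eq_laurentBaseChange L1 N)

/-- the same over `Q̄` itself: `hs_Key0 Q̄ _ A N p ⟹ jt_Key A N p`. -/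
theorem kd_hsk_key (A : ValuationSubring (AlgebraicClosure ℚ)) (N : ℕ) [NeZero N] {p : ℕ}
    (hp : p ≠ 0) (h : hs_Key0 (AlgebraicClosure ℚ) hs_three_ne_zero_bar A N p) :
    jt_Key A N p := by
  obtain ⟨ζ, hζ⟩ := HasEnoughRootsOfUnity.exists_primitiveRoot (AlgebraicClosure ℚ) 3
  have key : ∀ F : IntermediateField (AlgebraicClosure ℚ) (LaurentSeries (AlgebraicClosure ℚ)),
      lg_F (AlgebraicClosure ℚ) N = F → kd_KeyF (AlgebraicClosure ℚ) A N p F := by
    rintro F rfl
    exact kd_hsk_keyF (AlgebraicClosure ℚ) hs_three_ne_zero_bar A N hζ hp h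
  exact key _ (lg_F_eq_bar N)

/-- number field form: `jt_Key` follows from `hs_Key0` over every number field `L1 ⊆ Q̄`
containing a primitive cube root of unity. -/
theorem kd_hsk_key_of_numberField (A : ValuationSubring (AlgebraicClosure ℚ)) (N : ℕ) [NeZero N]
    {p : ℕ} (hp : p ≠ 0)
    (hK : ∀ L1 : IntermediateField ℚ (AlgebraicClosure ℚ), FiniteDimensional ℚ L1 →
      ∀ (h3 : (3 : ↥L1) ≠ 0) (ζ : ↥L1), IsPrimitiveRoot ζ 3 →
        hs_Key0 ↥L1 h3 (A.comap (algebraMap ↥L1 (AlgebraicClosure ℚ))) N p) :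
    jt_Key A N p := by
  have _ : Algebra.IsAlgebraic ℚ (AlgebraicClosure ℚ) := AlgebraicClosure.isAlgebraic ℚ
  obtain ⟨ζ, hζ⟩ := HasEnoughRootsOfUnity.exists_primitiveRoot (AlgebraicClosure ℚ) 3
  apply dsc_key_of_keyAt
  intro s
  set L1 : IntermediateField ℚ (AlgebraicClosure ℚ) :=
    IntermediateField.adjoin ℚ ((↑s : Set (AlgebraicClosure ℚ)) ∪ {ζ}) with hL1
  have hfd : FiniteDimensional ℚ L1 := by
    have hfin : ((↑s : Set (AlgebraicClosure ℚ)) ∪ {ζ}).Finite :=
      (Finset.finite_toSet s).union (Set.finite_singleton ζ)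
    haveI := hfin.to_subtype
    exact IntermediateField.finiteDimensional_adjoin
      (fun x _ => Algebra.IsIntegral.isIntegral x)
  have hζmem : ζ ∈ L1 := IntermediateField.subset_adjoin ℚ _ (Or.inr rfl)
  have hζ' : IsPrimitiveRoot (⟨ζ, hζmem⟩ : ↥L1) 3 :=
    IsPrimitiveRoot.of_map_of_injective (f := L1.val) hζ L1.val.injective
  have h3 : (3 : ↥L1) ≠ 0 := by norm_num
  refine ⟨L1, fun x hx => IntermediateField.subset_adjoin ℚ _ (Or.inl hx), ?_⟩
  exact kd_hsk_keyAt A N hp ↥L1 h3 hζ' (hK L1 hfd h3 _ hζ')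

/-- number field form with prescribed elements: `jt_Key` follows from `hs_Key0` over every number
field `L1 ⊆ Q̄` containing a primitive cube root of unity and a given finite set `T`. -/
theorem kd_hsk_key_of_numberField_of_subset (A : ValuationSubring (AlgebraicClosure ℚ)) (N : ℕ)
    [NeZero N] {p : ℕ} (hp : p ≠ 0) (T : Finset (AlgebraicClosure ℚ))
    (hK : ∀ L1 : IntermediateField ℚ (AlgebraicClosure ℚ), FiniteDimensional ℚ L1 →
      (↑T : Set (AlgebraicClosure ℚ)) ⊆ L1 →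
      ∀ (h3 : (3 : ↥L1) ≠ 0) (ζ : ↥L1), IsPrimitiveRoot ζ 3 →
        hs_Key0 ↥L1 h3 (A.comap (algebraMap ↥L1 (AlgebraicClosure ℚ))) N p) :
    jt_Key A N p := by
  classical
  have _ : Algebra.IsAlgebraic ℚ (AlgebraicClosure ℚ) := AlgebraicClosure.isAlgebraic ℚ
  obtain ⟨ζ, hζ⟩ := HasEnoughRootsOfUnity.exists_primitiveRoot (AlgebraicClosure ℚ) 3
  apply dsc_key_of_keyAt
  intro s
  set L1 : IntermediateField ℚ (AlgebraicClosure ℚ) :=
    IntermediateField.adjoin ℚ ((↑(s ∪ T ∪ {ζ}) : Set (AlgebraicClosure ℚ))) with hL1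
  have hfd : FiniteDimensional ℚ L1 :=
    IntermediateField.finiteDimensional_adjoin (fun x _ => Algebra.IsIntegral.isIntegral x)
  have hsub : (↑(s ∪ T ∪ {ζ}) : Set (AlgebraicClosure ℚ)) ⊆ L1 :=
    IntermediateField.subset_adjoin ℚ _
  have hζmem : ζ ∈ L1 := hsub (by simp)
  have hζ' : IsPrimitiveRoot (⟨ζ, hζmem⟩ : ↥L1) 3 :=
    IsPrimitiveRoot.of_map_of_injective (f := L1.val) hζ L1.val.injective
  have h3 : (3 : ↥L1) ≠ 0 := by norm_num
  refine ⟨L1, fun x hx => hsub (by simp [Finset.mem_coe.1 hx]), ?_⟩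
  exact kd_hsk_keyAt A N hp ↥L1 h3 hζ'
    (hK L1 hfd (fun x hx => hsub (by simp [Finset.mem_coe.1 hx])) h3 _ hζ')

end Key

end Fermat.Agent.JT3
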